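/-
Project S58, cell [Z] (helper20).  Prefix `s58z_`.  Mathlib only.

COMPARISON OF CHARACTERISTIC POLYNOMIALS OF TWO RANK-TWO REPRESENTATIONS.
`R` a domain, `V`, `V'` free of rank `2`, `ρ : G →* End V`, `ρ' : G →* End V'`.  If
`χ_{ρ(σ)}(ρ'(σ)) = 0` for every `σ` and some `ρ'(σ₀)` is not a scalar, then
`χ_{ρ(σ)} = χ_{ρ'(σ)}` for every `σ` (`s58z_main`).

* for a non-scalar `ρ'(σ)` a monic quadratic killing it IS its characteristic polynomial
  (`s58z_eq_charpoly_of_aeval`);
* a scalar `ρ'(σ) = s` is multiplied into the non-scalar `ρ'(σ₀)`: `ρ'(σ σ₀)` is not a scalar, so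
  the determinants agree at `σ σ₀` and `σ₀`, hence at `σ`; then `s² - t s + s² = 0` forces
  `t = 2 s`.
-/
import Mathlib

set_option autoImplicit false

open Polynomial

namespace Fermat.Agent.S58

section Matrix

variable {R : Type*} [CommRing R] [IsDomain R]

/-- a `2 × 2` matrix over a domain with `a • M + b • 1 = 0`, `a ≠ 0`, is a scalar matrix -/
theorem s58z_matrix_scalar (M : Matrix (Fin 2) (Fin 2) R) {a b : R} (ha : a ≠ 0)
    (h : a • M + b • (1 : Matrix (Fin 2) (Fin 2) R) = 0) : M = M 0 0 • (1 : Matrix (Fin 2) (Fin 2) R) := by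
  have h00 := congrFun (congrFun h 0) 0
  have h01 := congrFun (congrFun h 0) 1
  have h10 := congrFun (congrFun h 1) 0
  have h11 := congrFun (congrFun h 1) 1
  simp only [Matrix.add_apply, Matrix.smul_apply, Matrix.one_apply_eq, Matrix.zero_apply,
    smul_eq_mul, mul_one, ne_eq, zero_ne_one, one_ne_zero, not_false_eq_true,
    Matrix.one_apply_ne, mul_zero, add_zero, Fin.isValue] at h00 h01 h10 h11
  have e01 : M 0 1 = 0 := (mul_eq_zero.mp h01).resolve_left ha
  have e10 : M 1 0 = 0 := (mul_eq_zero.mp h10).resolve_left ha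
  have e11 : M 1 1 = M 0 0 := by
    have : a * (M 1 1 - M 0 0) = 0 := by linear_combination h11 - h00
    exact sub_eq_zero.mp ((mul_eq_zero.mp this).resolve_left ha)
  ext i j
  fin_cases i <;> fin_cases j <;> simp [e01, e10, e11]

end Matrix

section End

variable {R : Type*} [CommRing R] [IsDomain R] {V : Type*} [AddCommGroup V] [Module R V]
  [Module.Free R V] [Module.Finite R V]

/-- the characteristic polynomial in rank two -/
theorem s58z_charpoly_two (hV : Module.finrank R V = 2) (f : Module.End R V) :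
    f.charpoly = X ^ 2 - C (LinearMap.trace R V f) * X + C (LinearMap.det f) := by
  classical
  let e := Module.finBasisOfFinrankEq R V hV
  rw [← LinearMap.charpoly_toMatrix f e, Matrix.charpoly_fin_two,
    LinearMap.trace_eq_matrix_trace R e f, LinearMap.det_toMatrix e f]

theorem s58z_charpoly_coeff_zero (hV : Module.finrank R V = 2) (f : Module.End R V) :
    f.charpoly.coeff 0 = LinearMap.det f := by
  rw [s58z_charpoly_two hV f]
  simp

theorem s58z_charpoly_coeff_one (hV : Module.finrank R V = 2) (f : Module.End R V) :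
    f.charpoly.coeff 1 = - LinearMap.trace R V f := by
  rw [s58z_charpoly_two hV f]
  simp

/-- `a • f + b • 1 = 0` with `a ≠ 0` forces `f` to be a scalar -/
theorem s58z_end_scalar (hV : Module.finrank R V = 2) (f : Module.End R V) {a b : R} (ha : a ≠ 0)
    (h : a • f + b • (1 : Module.End R V) = 0) : ∃ s : R, f = s • (1 : Module.End R V) := by
  classical
  let e := Module.finBasisOfFinrankEq R V hV
  have hM : a • LinearMap.toMatrix e e f + b • (1 : Matrix (Fin 2) (Fin 2) R) = 0 := by
    have := congrArg (LinearMap.toMatrix e e) h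
    rwa [map_add, map_smul, map_smul, map_zero, LinearMap.toMatrix_one] at this
  have hs := s58z_matrix_scalar (LinearMap.toMatrix e e f) ha hM
  refine ⟨LinearMap.toMatrix e e f 0 0, ?_⟩
  apply (LinearMap.toMatrix e e).injective
  rw [map_smul, LinearMap.toMatrix_one]
  exact hs

/-- `b • 1 = 0` forces `b = 0` in rank two -/
theorem s58z_smul_one_eq_zero (hV : Module.finrank R V = 2) {b : R}
    (h : b • (1 : Module.End R V) = 0) : b = 0 := by
  classical
  let e := Module.finBasisOfFinrankEq R V hV
  have := congrArg (LinearMap.toMatrix e e) h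
  rw [map_smul, map_zero, LinearMap.toMatrix_one] at this
  have h00 := congrFun (congrFun this 0) 0
  simpa using h00

/-- a monic quadratic killing a non-scalar endomorphism is its characteristic polynomial -/
theorem s58z_eq_charpoly_of_aeval (hV : Module.finrank R V = 2) (f : Module.End R V)
    (hf : ∀ s : R, f ≠ s • (1 : Module.End R V)) {p : R[X]} (hp : p.Monic)
    (hdeg : p.natDegree = 2) (hpf : aeval f p = 0) : p = f.charpoly := by
  have hc : f.charpoly.Monic := LinearMap.charpoly_monic f
  have hcdeg : f.charpoly.natDegree = 2 := by rw [LinearMap.charpoly_natDegree, hV]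
  set g := p - f.charpoly with hg
  have hgf : aeval f g = 0 := by rw [hg, map_sub, hpf, LinearMap.aeval_self_charpoly, sub_zero]
  have hgdeg : g.degree ≤ 1 := by
    by_cases h0 : g = 0
    · rw [h0, degree_zero]; exact bot_le
    have hlt : g.degree < p.degree := by
      rw [hg]
      refine degree_sub_lt_left ?_ hp.ne_zero ?_
      · rw [degree_eq_natDegree hp.ne_zero, degree_eq_natDegree hc.ne_zero, hdeg, hcdeg]
      · rw [hp.leadingCoeff, hc.leadingCoeff]
    rw [degree_eq_natDegree hp.ne_zero, hdeg] at hlt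
    rw [degree_eq_natDegree h0] at hlt ⊢
    have : g.natDegree < 2 := by exact_mod_cast hlt
    exact_mod_cast Nat.lt_succ_iff.mp this
  have hgeq := eq_X_add_C_of_degree_le_one hgdeg
  set a := g.coeff 1
  set b := g.coeff 0
  have hab : a • f + b • (1 : Module.End R V) = 0 := by
    have := hgf
    rw [hgeq, map_add, map_mul, aeval_C, aeval_X, aeval_C, Algebra.algebraMap_eq_smul_one,
      Algebra.algebraMap_eq_smul_one, smul_mul_assoc, one_mul] at this
    exact this
  have ha : a = 0 := by
    by_contra ha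
    obtain ⟨s, hs⟩ := s58z_end_scalar hV f ha hab
    exact hf s hs
  have hb : b = 0 := by
    rw [ha, zero_smul, zero_add] at hab
    exact s58z_smul_one_eq_zero hV hab
  have hg0 : g = 0 := by rw [hgeq, ha, hb]; simp
  exact sub_eq_zero.mp hg0

/-- the characteristic polynomial of a scalar in rank two -/
theorem s58z_charpoly_scalar (hV : Module.finrank R V = 2) (s : R) :
    (s • (1 : Module.End R V)).charpoly = X ^ 2 - C (2 * s) * X + C (s ^ 2) := by
  classical
  let e := Module.finBasisOfFinrankEq R V hV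
  rw [← LinearMap.charpoly_toMatrix _ e, Matrix.charpoly_fin_two, map_smul,
    LinearMap.toMatrix_one]
  have ht : (s • (1 : Matrix (Fin 2) (Fin 2) R)).trace = 2 * s := by
    rw [Matrix.trace_fin_two]; simp; ring
  have hd : (s • (1 : Matrix (Fin 2) (Fin 2) R)).det = s ^ 2 := by
    rw [Matrix.det_fin_two]; simp; ring
  rw [ht, hd]

end End

section Main

variable {G : Type*} [Group G] {R : Type*} [CommRing R] [IsDomain R]
  {V : Type*} [AddCommGroup V] [Module R V] [Module.Free R V] [Module.Finite R V]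
  {V' : Type*} [AddCommGroup V'] [Module R V'] [Module.Free R V'] [Module.Finite R V']

/-- **comparison of characteristic polynomials** -/
theorem s58z_main (hV : Module.finrank R V = 2) (hV' : Module.finrank R V' = 2)
    (ρ : G →* Module.End R V) (ρ' : G →* Module.End R V')
    (hkill : ∀ σ : G, aeval (ρ' σ) (ρ σ).charpoly = 0)
    (σ₀ : G) (hσ₀ : ∀ s : R, ρ' σ₀ ≠ s • (1 : Module.End R V')) (σ : G) :
    (ρ σ).charpoly = (ρ' σ).charpoly := by
  have hmon : ∀ τ : G, (ρ τ).charpoly.Monic := fun τ => LinearMap.charpoly_monic _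
  have hdeg : ∀ τ : G, (ρ τ).charpoly.natDegree = 2 := fun τ => by
    rw [LinearMap.charpoly_natDegree, hV]
  -- the non-scalar case
  have hns : ∀ τ : G, (∀ s : R, ρ' τ ≠ s • (1 : Module.End R V')) →
      (ρ τ).charpoly = (ρ' τ).charpoly := fun τ hτ =>
    s58z_eq_charpoly_of_aeval hV' (ρ' τ) hτ (hmon τ) (hdeg τ) (hkill τ)
  by_cases hsc : ∀ s : R, ρ' σ ≠ s • (1 : Module.End R V')
  · exact hns σ hsc
  push Not at hsc
  obtain ⟨s, hs⟩ := hsc
  -- `s ≠ 0`
  have hinv : ρ' σ * ρ' σ⁻¹ = 1 := by rw [← map_mul, mul_inv_cancel, map_one]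
  have hs0 : s ≠ 0 := by
    intro h0
    rw [hs, h0, zero_smul, zero_mul] at hinv
    have h1 : (1 : R) • (1 : Module.End R V') = 0 := by rw [one_smul]; exact hinv.symm
    exact one_ne_zero (s58z_smul_one_eq_zero hV' h1)
  -- `ρ' (σ σ₀)` is not a scalar
  have hprod : ρ' (σ * σ₀) = s • ρ' σ₀ := by rw [map_mul, hs, smul_mul_assoc, one_mul]
  have hns' : ∀ s' : R, ρ' (σ * σ₀) ≠ s' • (1 : Module.End R V') := by
    intro s' h'
    rw [hprod] at h'
    have : s • ρ' σ₀ + (-s') • (1 : Module.End R V') = 0 := by rw [h', neg_smul, add_neg_cancel]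
    obtain ⟨s'', hs''⟩ := s58z_end_scalar hV' (ρ' σ₀) hs0 this
    exact hσ₀ s'' hs''
  -- determinants
  have hd1 : LinearMap.det (ρ (σ * σ₀)) = LinearMap.det (ρ' (σ * σ₀)) := by
    rw [← s58z_charpoly_coeff_zero hV, ← s58z_charpoly_coeff_zero hV', hns _ hns']
  have hd0 : LinearMap.det (ρ σ₀) = LinearMap.det (ρ' σ₀) := by
    rw [← s58z_charpoly_coeff_zero hV, ← s58z_charpoly_coeff_zero hV', hns _ hσ₀]
  have hd0ne : LinearMap.det (ρ' σ₀) ≠ 0 := by
    intro h0
    have h1 : LinearMap.det (ρ' σ₀) * LinearMap.det (ρ' σ₀⁻¹) = 1 := by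
      rw [← map_mul, ← map_mul, mul_inv_cancel, map_one, map_one]
    rw [h0, zero_mul] at h1
    exact zero_ne_one h1
  have hdσ : LinearMap.det (ρ σ) = s ^ 2 := by
    have h1 : LinearMap.det (ρ σ) * LinearMap.det (ρ σ₀) =
        LinearMap.det (ρ' σ) * LinearMap.det (ρ' σ₀) := by
      rw [← map_mul, ← map_mul, ← map_mul, ← map_mul]; exact hd1
    rw [hd0] at h1
    have h2 := mul_right_cancel₀ hd0ne h1
    rw [h2, hs, LinearMap.det_smul, hV', map_one, mul_one]
  -- the trace
  have hcp := s58z_charpoly_two hV (ρ σ)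
  have hk := hkill σ
  rw [hcp, hs, hdσ] at hk
  have hk' : (s ^ 2 - LinearMap.trace R V (ρ σ) * s + s ^ 2) • (1 : Module.End R V') = 0 := by
    have : aeval (s • (1 : Module.End R V'))
        (X ^ 2 - C (LinearMap.trace R V (ρ σ)) * X + C (s ^ 2) : R[X]) =
        (s ^ 2 - LinearMap.trace R V (ρ σ) * s + s ^ 2) • (1 : Module.End R V') := by
      simp only [map_add, map_sub, map_mul, map_pow, aeval_X, aeval_C,
        Algebra.algebraMap_eq_smul_one, _root_.smul_pow, one_pow, smul_mul_smul_comm, mul_one,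
        add_smul, sub_smul]
    rw [this] at hk
    exact hk
  have hk0 := s58z_smul_one_eq_zero hV' hk'
  have htr : LinearMap.trace R V (ρ σ) = 2 * s := by
    have : s * (2 * s - LinearMap.trace R V (ρ σ)) = 0 := by linear_combination hk0
    have := (mul_eq_zero.mp this).resolve_left hs0
    linear_combination -this
  rw [hcp, hs, s58z_charpoly_scalar hV' s, htr, hdσ]

end Main

end Fermat.Agent.S58
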