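/-
Project S58, cell [CMP] (helper20).  Prefix `s58cm_`.

CLOSURE OF A FROBENIUS RELATION BETWEEN TWO ADIC REPRESENTATIONS (weak Chebotarev + continuity).
`A` a noetherian local ring, `ρ`, `ρ'` two `GaloisRepAdic A` (rank two, adically continuous), `S` a
finite set of primes.  If `χ_{ρ(φ)}(ρ'(φ)) = 0` for every Frobenius element `φ` at every prime
outside `S`, then `χ_{ρ(σ)}(ρ'(σ)) = 0` for EVERY `σ ∈ Gal(ℚ̄/ℚ)` (`s58cm_main`).

Proof.  Weak Chebotarev `Fermat.Agent.WC.wc_main` only gives `σ = φ ^ k` on a finite normal level,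
so the relation is first propagated to powers (`s58cm_pow`: if `M² - tr f · M + det f = 0` then
`(M^k)² - tr (f^k) · M^k + det (f^k) = 0`; Lucas sequences, `gcl_pow_relation`,
`ur_lt_trace_pow`), then transported by congruence modulo `𝔪ⁿ` (`s58cm_small_aeval`), and finally
`⋂ 𝔪ⁿ V' = 0` (Krull).

Together with `s58z_main` (S58/CharpolyCmp.lean): if moreover some `ρ'(σ₀)` is not a scalar (and `A`
is a domain) then `ρ` and `ρ'` have the same characteristic polynomials (`s58cm_charpoly_eq`).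
-/
import Mathlib
import Fermat.Prelude.Def_GaloisRep_Adic
import Fermat.Agent.JT3.Algebra.GoodClosure
import Fermat.Agent.JT3.Unram.LucasTrace
import Fermat.Agent.WC.Final
import Fermat.Agent.S58.CharpolyCmp

set_option autoImplicit false
set_option linter.style.haveILetI false

open Polynomial

namespace Fermat.Agent.S58

open Fermat.Agent.JT3

local notation "GQ" => (AlgebraicClosure ℚ ≃ₐ[ℚ] AlgebraicClosure ℚ)
local notation "Qbar" => AlgebraicClosure ℚ

section Algebra

variable {R : Type*} [CommRing R] [Nontrivial R] {V : Type*} [AddCommGroup V] [Module R V]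
  [Module.Free R V] [Module.Finite R V]
  {V' : Type*} [AddCommGroup V'] [Module R V']

/-- the characteristic polynomial in rank two (nontrivial base ring) -/
theorem s58cm_charpoly_two (hV : Module.finrank R V = 2) (f : Module.End R V) :
    f.charpoly = X ^ 2 - C (LinearMap.trace R V f) * X + C (LinearMap.det f) := by
  classical
  let e := Module.finBasisOfFinrankEq R V hV
  rw [← LinearMap.charpoly_toMatrix f e, Matrix.charpoly_fin_two,
    LinearMap.trace_eq_matrix_trace R e f, LinearMap.det_toMatrix e f]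

/-- evaluation of the rank-two characteristic polynomial at another endomorphism -/
theorem s58cm_aeval_eq (hV : Module.finrank R V = 2) (f : Module.End R V) (M : Module.End R V') :
    aeval M f.charpoly =
      M * M - LinearMap.trace R V f • M + LinearMap.det f • (1 : Module.End R V') := by
  rw [s58cm_charpoly_two hV f]
  simp only [map_add, map_sub, map_mul, aeval_X, aeval_C,
    Algebra.algebraMap_eq_smul_one, smul_mul_assoc, one_mul, pow_two]

/-- the relation passes to powers -/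
theorem s58cm_pow (hV : Module.finrank R V = 2) (f : Module.End R V) (M : Module.End R V')
    (h : aeval M f.charpoly = 0) (k : ℕ) : aeval (M ^ k) (f ^ k).charpoly = 0 := by
  rw [s58cm_aeval_eq hV] at h ⊢
  have hrel := gcl_pow_relation (O := R) (R := Module.End R V') h k
  have htr : LinearMap.trace R V (f ^ k) =
      gcl_luc (LinearMap.trace R V f) (LinearMap.det f) k :=
    ur_lt_trace_pow hV f _ _ (s58cm_charpoly_two hV f) k
  rw [htr, map_pow]
  exact hrel

omit [Nontrivial R] [Module.Free R V] [Module.Finite R V] in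
/-- coordinates of an element of `I • V` lie in `I` -/
theorem s58cm_repr_mem {ι : Type*} (b : Module.Basis ι R V) (I : Ideal R) {v : V}
    (hv : v ∈ I • (⊤ : Submodule R V)) (j : ι) : b.repr v j ∈ I := by
  refine Submodule.smul_induction_on (p := fun v => b.repr v j ∈ I) hv (fun r hr n _ => ?_)
    (fun x y hx hy => ?_)
  · show b.repr (r • n) j ∈ I
    rw [map_smul, Finsupp.smul_apply, smul_eq_mul]
    exact I.mul_mem_right _ hr
  · show b.repr (x + y) j ∈ I
    rw [map_add, Finsupp.add_apply]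
    exact I.add_mem hx hy

/-- congruent endomorphisms of a rank-two module have congruent determinants -/
theorem s58cm_det_congr (hV : Module.finrank R V = 2) (I : Ideal R) (f f' : Module.End R V)
    (h : gcl_Small I (f' - f)) : LinearMap.det f' - LinearMap.det f ∈ I := by
  classical
  let e := Module.finBasisOfFinrankEq R V hV
  have hent : ∀ i j : Fin 2,
      LinearMap.toMatrix e e f' i j - LinearMap.toMatrix e e f i j ∈ I := by
    intro i j
    have := s58cm_repr_mem e I (h (e j)) i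
    rwa [LinearMap.sub_apply, map_sub, Finsupp.sub_apply, ← LinearMap.toMatrix_apply,
      ← LinearMap.toMatrix_apply] at this
  rw [← LinearMap.det_toMatrix e f', ← LinearMap.det_toMatrix e f, Matrix.det_fin_two,
    Matrix.det_fin_two]
  set m' := LinearMap.toMatrix e e f'
  set m := LinearMap.toMatrix e e f
  have : m' 0 0 * m' 1 1 - m' 0 1 * m' 1 0 - (m 0 0 * m 1 1 - m 0 1 * m 1 0) =
      m' 0 0 * (m' 1 1 - m 1 1) + (m' 0 0 - m 0 0) * m 1 1 -
        (m' 0 1 * (m' 1 0 - m 1 0) + (m' 0 1 - m 0 1) * m 1 0) := by ring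
  rw [this]
  exact I.sub_mem (I.add_mem (I.mul_mem_left _ (hent 1 1)) (I.mul_mem_right _ (hent 0 0)))
    (I.add_mem (I.mul_mem_left _ (hent 1 0)) (I.mul_mem_right _ (hent 0 1)))

/-- transport of the relation by congruence modulo `I` -/
theorem s58cm_small_aeval (hV : Module.finrank R V = 2) (I : Ideal R) (f f' : Module.End R V)
    (M M' : Module.End R V') (hf : gcl_Small I (f' - f)) (hM : gcl_Small I (M' - M))
    (h : aeval M' f'.charpoly = 0) : gcl_Small I (aeval M f.charpoly) := by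
  rw [s58cm_aeval_eq hV] at h ⊢
  have htr : LinearMap.trace R V f' - LinearMap.trace R V f ∈ I := by
    rw [← map_sub]
    exact ur_lt_trace_small I _ hf
  have hdet := s58cm_det_congr hV I f f' hf
  have hMneg : gcl_Small I (M - M') := by
    have := hM.neg
    rwa [neg_sub] at this
  have key : M * M - LinearMap.trace R V f • M + LinearMap.det f • (1 : Module.End R V') =
      (M * (M - M') + (M - M') * M') +
        ((LinearMap.trace R V f' - LinearMap.trace R V f) • M +
          LinearMap.trace R V f' • (M' - M)) -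
        (LinearMap.det f' - LinearMap.det f) • (1 : Module.End R V') +
      (M' * M' - LinearMap.trace R V f' • M' + LinearMap.det f' • (1 : Module.End R V')) := by
    simp only [mul_sub, sub_mul, sub_smul, smul_sub]
    abel
  rw [key, h, add_zero]
  exact (((hMneg.mul_left M).add (hMneg.mul_right M')).add
    ((gcl_Small.smul_of_mem htr M).add (hM.smul _))).sub (gcl_Small.smul_of_mem hdet _)

end Algebra

section Normal

/-- a finite normal field containing two given finite fields -/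
theorem s58cm_exists_normal (L₁ L₂ : IntermediateField ℚ Qbar) (h₁ : FiniteDimensional ℚ L₁)
    (h₂ : FiniteDimensional ℚ L₂) :
    ∃ L : IntermediateField ℚ Qbar, FiniteDimensional ℚ L ∧ Normal ℚ L ∧ L₁ ≤ L ∧ L₂ ≤ L := by
  haveI := h₁
  haveI := h₂
  haveI : FiniteDimensional ℚ ↥(L₁ ⊔ L₂) := IntermediateField.finiteDimensional_sup L₁ L₂
  haveI : Algebra.IsAlgebraic ℚ Qbar := AlgebraicClosure.isAlgebraic ℚ
  haveI : IsAlgClosure ℚ Qbar := ⟨inferInstance, inferInstance⟩
  haveI : Normal ℚ Qbar := IsAlgClosure.normal ℚ Qbar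
  refine ⟨IntermediateField.normalClosure ℚ ↥(L₁ ⊔ L₂) Qbar,
    normalClosure.is_finiteDimensional ℚ _ Qbar, normalClosure.normal ℚ _ Qbar, ?_, ?_⟩
  · exact le_sup_left.trans (IntermediateField.le_normalClosure _)
  · exact le_sup_right.trans (IntermediateField.le_normalClosure _)

end Normal

section Main

variable {A : Type} [CommRing A] [IsLocalRing A] [IsNoetherianRing A]

/-- **[CMP]**: a relation `χ_{ρ(φ)}(ρ'(φ)) = 0` at the Frobenius elements of all primes outside a
finite set holds at every element of `Gal(ℚ̄/ℚ)`. -/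
theorem s58cm_main (ρ ρ' : GaloisRepAdic A) (S : Finset ℕ)
    (hF : ∀ ℓ : ℕ, ℓ.Prime → ℓ ∉ S → ∀ P : ValuationSubring Qbar, P.LiesOverPrime ℓ →
      ∀ φ : GQ, P.IsFrobeniusAt φ ℓ → aeval (ρ'.ρ φ) (ρ.ρ φ).charpoly = 0) (σ : GQ) :
    aeval (ρ'.ρ σ) (ρ.ρ σ).charpoly = 0 := by
  -- it is small modulo every power of the maximal ideal
  have hsmall : ∀ n : ℕ, gcl_Small (IsLocalRing.maximalIdeal A ^ n)
      (aeval (ρ'.ρ σ) (ρ.ρ σ).charpoly) := by
    intro n
    obtain ⟨L₁, hL₁, h1⟩ := ρ.isAdicContinuous n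
    obtain ⟨L₂, hL₂, h2⟩ := ρ'.isAdicContinuous n
    obtain ⟨L, hLfd, hLn, h1L, h2L⟩ := s58cm_exists_normal L₁ L₂ hL₁ hL₂
    haveI := hLfd
    haveI := hLn
    obtain ⟨ℓ, P, φ, k, hℓ, hℓS, hP, hφ, hk⟩ := Fermat.Agent.WC.wc_main L S σ
    -- the error term
    have hδ : ∀ x ∈ L, (σ⁻¹ * φ ^ k) x = x := by
      intro x hx
      rw [AlgEquiv.mul_apply, hk x hx]
      show (σ⁻¹ * σ) x = x
      rw [inv_mul_cancel]
      rfl
    have hprod : φ ^ k = σ * (σ⁻¹ * φ ^ k) := (mul_inv_cancel_left σ (φ ^ k)).symm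
    have hs1 : gcl_Small (IsLocalRing.maximalIdeal A ^ n) (ρ.ρ (φ ^ k) - ρ.ρ σ) := by
      have h5 : ρ.ρ (φ ^ k) - ρ.ρ σ = ρ.ρ σ * (ρ.ρ (σ⁻¹ * φ ^ k) - 1) := by
        rw [mul_sub, mul_one, ← map_mul, ← hprod]
      rw [h5]
      refine gcl_Small.mul_left (fun v => ?_) _
      rw [LinearMap.sub_apply, Module.End.one_apply]
      exact h1 _ (fun x hx => hδ x (h1L hx)) v
    have hs2 : gcl_Small (IsLocalRing.maximalIdeal A ^ n) (ρ'.ρ (φ ^ k) - ρ'.ρ σ) := by
      have h5 : ρ'.ρ (φ ^ k) - ρ'.ρ σ = ρ'.ρ σ * (ρ'.ρ (σ⁻¹ * φ ^ k) - 1) := by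
        rw [mul_sub, mul_one, ← map_mul, ← hprod]
      rw [h5]
      refine gcl_Small.mul_left (fun v => ?_) _
      rw [LinearMap.sub_apply, Module.End.one_apply]
      exact h2 _ (fun x hx => hδ x (h2L hx)) v
    have hpow : aeval (ρ'.ρ (φ ^ k)) (ρ.ρ (φ ^ k)).charpoly = 0 := by
      rw [map_pow, map_pow]
      exact s58cm_pow ρ.finrank_eq _ _ (hF ℓ hℓ hℓS P hP φ hφ) k
    exact s58cm_small_aeval ρ.finrank_eq _ _ _ _ _ hs1 hs2 hpow
  -- Krull's intersection theorem
  refine LinearMap.ext fun v => ?_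
  rw [LinearMap.zero_apply]
  have hmem : aeval (ρ'.ρ σ) (ρ.ρ σ).charpoly v ∈
      ⨅ n : ℕ, (IsLocalRing.maximalIdeal A ^ n) • (⊤ : Submodule A ρ'.V) :=
    (Submodule.mem_iInf _).mpr fun n => hsmall n v
  rw [Ideal.iInf_pow_smul_eq_bot_of_isLocalRing (IsLocalRing.maximalIdeal A)
    (IsLocalRing.maximalIdeal.isMaximal A).ne_top] at hmem
  exact (Submodule.mem_bot A).mp hmem

/-- **[CMP] + [Z]**: over a noetherian local DOMAIN, if moreover some `ρ'(σ₀)` is not a scalar,
the two representations have the same characteristic polynomials. -/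
theorem s58cm_charpoly_eq [IsDomain A] (ρ ρ' : GaloisRepAdic A) (S : Finset ℕ)
    (hF : ∀ ℓ : ℕ, ℓ.Prime → ℓ ∉ S → ∀ P : ValuationSubring Qbar, P.LiesOverPrime ℓ →
      ∀ φ : GQ, P.IsFrobeniusAt φ ℓ → aeval (ρ'.ρ φ) (ρ.ρ φ).charpoly = 0)
    (σ₀ : GQ) (hσ₀ : ∀ s : A, ρ'.ρ σ₀ ≠ s • (1 : Module.End A ρ'.V)) (σ : GQ) :
    (ρ.ρ σ).charpoly = (ρ'.ρ σ).charpoly :=
  s58z_main ρ.finrank_eq ρ'.finrank_eq ρ.ρ ρ'.ρ (s58cm_main ρ ρ' S hF) σ₀ hσ₀ σ

end Main

end Fermat.Agent.S58
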