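/-
S58 (conductor–level matching), project directory `Fermat/Agent/S58/`, namespace `Fermat.Agent.S58`.

THE SEAMS.  This file contains only definitions (`Prop`s): the statements exchanged between the
cells of the S58 project.  Prefix `s58_`.  Architect: helper21.

Elliptic-curve side (statements about torsion points of `W(ℚ̄)` only):
* `s58_FrobSeam`  (S-FROB): at a good prime `ℓ`, a Frobenius `σ` at a place `A ∣ ℓ` satisfies
  `σ² P - a_ℓ(W) σ P + ℓ P = 0` on every torsion point `P` of order prime to `ℓ`.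
* `s58_FixSeam`   (S-FIX): for a semistable `W`, primes `q ≠ lam`, a place `A ∣ q` and every `n`
  there is a point of exact order `lam ^ n` fixed by the inertia group of `A`.

Modular side:
* `s58_S35Stmt`, `s58_S36Stmt`: the statements of S35 and S36, verbatim (hypotheses of the top
  theorem until `Fermat.Agent.S35.result` / `Fermat.Agent.S36.result` are on main).
* `s58_OldLiftSeam` (D): raising the level of a normalised eigenform by a squarefree `R` prime to
  the level, keeping every coefficient prime to `R`.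
* `s58_Main`: the statement of S58, verbatim.
-/
import Mathlib
import Fermat.Prelude.Def_WeierstrassCurve_ConductorLevel
import Fermat.Prelude.Def_FLTPrelim_ModularRep
import Fermat.Prelude.Def_CuspForm_HeckeGaloisRepDatum
import Fermat.Prelude.Def_CuspForm_Newforms
import Fermat.Prelude.Def_GaloisRep_LocalConditions
import Fermat.Prelude.Def_GaloisRep_Residual

set_option autoImplicit false

open Polynomial
open scoped WeierstrassCurve.Affine

namespace Fermat.Agent.S58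

/-- `ℚ̄` -/
abbrev s58_Qb : Type := AlgebraicClosure ℚ

/-- `Gal(ℚ̄/ℚ)` -/
abbrev s58_G : Type := s58_Qb ≃ₐ[ℚ] s58_Qb

/-- the curve over `ℚ` -/
abbrev s58_WQ (W : WeierstrassCurve ℤ) : WeierstrassCurve.Affine ℚ := W.map (Int.castRingHom ℚ)

/-- the group `W(ℚ̄)` (with its `Gal(ℚ̄/ℚ)`-action, Mathlib's instance) -/
abbrev s58_E (W : WeierstrassCurve ℤ) : Type := ((s58_WQ W)⁄s58_Qb).Point

/-! ### The elliptic-curve seams -/

/-- **(S-FROB)** the Eichler–Shimura relation for `W` at a good prime `ℓ`, on the torsion points of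
order prime to `ℓ`: `σ² P - a_ℓ σ P + ℓ P = 0` for every Frobenius element `σ` at a place over
`ℓ`. -/
def s58_FrobSeam : Prop :=
  ∀ (W : WeierstrassCurve ℤ) (ℓ : ℕ), ℓ.Prime → ¬ (ℓ : ℤ) ∣ W.Δ →
    ∀ A : ValuationSubring s58_Qb, A.LiesOverPrime ℓ →
      ∀ σ : s58_G, A.IsFrobeniusAt σ ℓ →
        ∀ (m : ℕ) (P : s58_E W), m.Coprime ℓ → m • P = 0 →
          σ • σ • P - W.apOfModel ℓ • (σ • P) + (ℓ : ℤ) • P = 0

/-- **(S-FIX)** for a semistable `W`, an odd prime `lam`, a prime `q ≠ lam` and a place `A` over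
`q`: for every `n` there is a point of exact order `lam ^ n` fixed by the inertia group of `A`. -/
def s58_FixSeam : Prop :=
  ∀ (W : WeierstrassCurve ℤ), W.IsSemistableModel → W.Δ ≠ 0 →
    ∀ (lam q : ℕ), lam.Prime → lam ≠ 2 → q.Prime → q ≠ lam →
      ∀ A : ValuationSubring s58_Qb, A.LiesOverPrime q →
        ∀ n : ℕ, ∃ P : s58_E W, lam ^ (n + 1) • P = 0 ∧ lam ^ n • P ≠ 0 ∧
          ∀ σ ∈ A.inertiaSubgroupIn ℚ, σ • P = P

/-! ### The modular seams -/

open CuspForm CuspForm.IsNewform in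
/-- the statement of S35, verbatim -/
def s58_S35Stmt : Prop :=
  ∀ {M : ℕ} [NeZero M] {g : CuspForm (CongruenceSubgroup.Gamma0 M) 2} (_hg : g.IsNewform)
    (lam : ℕ) [Fact lam.Prime]
    (S : Finset ℕ)
    (O' : Type) [CommRing O'] [IsDomain O'] [IsDiscreteValuationRing O']
    [IsAdicComplete (IsLocalRing.maximalIdeal O') O'] [Finite (IsLocalRing.ResidueField O')]
    [CharZero O'] (_hlamO' : (lam : O') ∈ IsLocalRing.maximalIdeal O')
    (chig : CuspForm.heckeAlgebra M 2 (↑S : Set ℕ) →+* ℂ)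
    (_hchig : ∀ (ℓ : ℕ) (hℓ : ℓ.Prime) (hℓM : ¬ ℓ ∣ M) (hℓS : ℓ ∉ (↑S : Set ℕ)),
      chig (CuspForm.heckeAlgebra.T hℓ hℓM hℓS) = ModularFormClass.qCoeff g ℓ)
    (iota : chig.range →+* O')
    (_hlamS : lam ∈ S) (_hMS : ∀ q : ℕ, q.Prime → q ∣ M → q ∈ S),
    ∃ (O'' : Type) (_ : CommRing O'') (_ : IsDomain O'') (_ : IsDiscreteValuationRing O'')
      (_ : IsAdicComplete (IsLocalRing.maximalIdeal O'') O'') (_ : Finite (IsLocalRing.ResidueField O''))
      (_ : CharZero O'') (_ : Algebra O' O'') (_ : Module.Finite O' O'') (_ : IsLocalHom (algebraMap O' O'')),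
      Function.Injective (algebraMap O' O'') ∧
      ∃ ρ : GaloisRepAdic O'',
        (∀ (ℓ : ℕ) (hℓ : ℓ.Prime) (hℓM : ¬ ℓ ∣ M) (hℓS : ℓ ∉ (↑S : Set ℕ)),
          ∀ A : ValuationSubring (AlgebraicClosure ℚ), A.LiesOverPrime ℓ →
            ∀ σ : AlgebraicClosure ℚ ≃ₐ[ℚ] AlgebraicClosure ℚ, A.IsFrobeniusAt σ ℓ →
              LinearMap.charpoly (ρ.ρ σ) =
                X ^ 2 - C (algebraMap O' O'' ((iota.comp chig.rangeRestrict) (CuspForm.heckeAlgebra.T hℓ hℓM hℓS))) * X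
                  + C ((ℓ : O''))) ∧
        (∀ q : ℕ, q.Prime → q ≠ lam → q ∣ M → ¬ q ^ 2 ∣ M →
          ∀ A : ValuationSubring (AlgebraicClosure ℚ), A.LiesOverPrime q →
            ∀ σ : AlgebraicClosure ℚ ≃ₐ[ℚ] AlgebraicClosure ℚ, A.IsFrobeniusAt σ q →
              LinearMap.charpoly (ρ.ρ σ) = X ^ 2 - C ((q : O'') + 1) * X + C ((q : O'')) ∨
              LinearMap.charpoly (ρ.ρ σ) = X ^ 2 + C ((q : O'') + 1) * X + C ((q : O'')))

open CuspForm CuspForm.IsNewform in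
/-- the statement of S36, verbatim -/
def s58_S36Stmt : Prop :=
  ∀ {M : ℕ} [NeZero M] {g : CuspForm (CongruenceSubgroup.Gamma0 M) 2} (_hg : g.IsNewform)
    (lam : ℕ) [Fact lam.Prime]
    (S : Finset ℕ)
    (O' : Type) [CommRing O'] [IsDomain O'] [IsDiscreteValuationRing O']
    [IsAdicComplete (IsLocalRing.maximalIdeal O') O'] [Finite (IsLocalRing.ResidueField O')]
    [CharZero O'] (_hlamO' : (lam : O') ∈ IsLocalRing.maximalIdeal O')
    (_hlam2 : lam ≠ 2)
    (chig : CuspForm.heckeAlgebra M 2 (↑S : Set ℕ) →+* ℂ)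
    (_hchig : ∀ (ℓ : ℕ) (hℓ : ℓ.Prime) (hℓM : ¬ ℓ ∣ M) (hℓS : ℓ ∉ (↑S : Set ℕ)),
      chig (CuspForm.heckeAlgebra.T hℓ hℓM hℓS) = ModularFormClass.qCoeff g ℓ)
    (iota : chig.range →+* O')
    (_hlamS : lam ∈ S) (_hMS : ∀ q : ℕ, q.Prime → q ∣ M → q ∈ S)
    (_hres : ∀ (O'' : Type) [CommRing O''] [IsDomain O''] [IsDiscreteValuationRing O'']
      [IsAdicComplete (IsLocalRing.maximalIdeal O'') O''] [Finite (IsLocalRing.ResidueField O'')] [CharZero O'']
      [Algebra O' O''] [Module.Finite O' O''] [IsLocalHom (algebraMap O' O'')],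
      Function.Injective (algebraMap O' O'') → ∀ (ρ : GaloisRepAdic O''),
      (∀ (ℓ : ℕ) (hℓ : ℓ.Prime) (_hℓlam : ℓ ≠ lam) (hℓM : ¬ ℓ ∣ M) (hℓS : ℓ ∉ (↑S : Set ℕ)),
        ∀ A : ValuationSubring (AlgebraicClosure ℚ), A.LiesOverPrime ℓ →
          ∀ σ : AlgebraicClosure ℚ ≃ₐ[ℚ] AlgebraicClosure ℚ, A.IsFrobeniusAt σ ℓ →
            LinearMap.charpoly (ρ.ρ σ) =
              X ^ 2 - C (algebraMap O' O'' ((iota.comp chig.rangeRestrict) (CuspForm.heckeAlgebra.T hℓ hℓM hℓS))) * X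
                + C ((ℓ : O'')))
      → ρ.residual.IsAbsolutelyIrreducible ∧ ρ.residual.IsOdd),
    ∃ (O'' : Type) (_ : CommRing O'') (_ : IsDomain O'') (_ : IsDiscreteValuationRing O'')
      (_ : IsAdicComplete (IsLocalRing.maximalIdeal O'') O'') (_ : Finite (IsLocalRing.ResidueField O''))
      (_ : CharZero O'') (_ : Algebra O' O'') (_ : Module.Finite O' O'') (_ : IsLocalHom (algebraMap O' O'')),
      Function.Injective (algebraMap O' O'') ∧
      ∃ ρ : GaloisRepAdic O'',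
        (∀ (ℓ : ℕ) (hℓ : ℓ.Prime) (hℓM : ¬ ℓ ∣ M) (hℓS : ℓ ∉ (↑S : Set ℕ)),
          ∀ A : ValuationSubring (AlgebraicClosure ℚ), A.LiesOverPrime ℓ →
            ∀ σ : AlgebraicClosure ℚ ≃ₐ[ℚ] AlgebraicClosure ℚ, A.IsFrobeniusAt σ ℓ →
              LinearMap.charpoly (ρ.ρ σ) =
                X ^ 2 - C (algebraMap O' O'' ((iota.comp chig.rangeRestrict) (CuspForm.heckeAlgebra.T hℓ hℓM hℓS))) * X
                  + C ((ℓ : O''))) ∧
        (∀ q : ℕ, q.Prime → q ≠ lam → M.factorization q = 2 → ¬ ρ.IsUnipotentOnInertiaAt q)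

/-- **(D)** [OLD-LIFT]: a normalised eigenform of level `M` can be moved to level `M * R`, `R`
squarefree and prime to `M`, keeping every coefficient of index prime to `R`. -/
def s58_OldLiftSeam : Prop :=
  ∀ (M R : ℕ) [NeZero M], Squarefree R → M.Coprime R →
    ∀ g : CuspForm (CongruenceSubgroup.Gamma0 M) 2, g.IsNormalizedEigenform →
      ∃ g' : CuspForm (CongruenceSubgroup.Gamma0 (M * R)) 2, g'.IsNormalizedEigenform ∧
        ∀ n : ℕ, n.Coprime R → ModularFormClass.qCoeff g' n = ModularFormClass.qCoeff g n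

/-- the statement of S58, verbatim -/
def s58_Main : Prop :=
  ∀ (W : WeierstrassCurve ℤ) (_hss : W.IsSemistableModel) (N : ℕ)
    (p : ℕ) [Fact p.Prime] (_hp2 : p ≠ 2) (_hirr : W.ModRepIsIrreducible p)
    (_hp2N : ¬ p ^ 2 ∣ N)
    (_hN : W.IsModularModelOfLevel N) (_hbad : ∀ ℓ : ℕ, ℓ.Prime → (ℓ : ℤ) ∣ W.Δ → ℓ ∣ N)
    (_hN3 : ∀ q : ℕ, q.Prime → ¬ q ^ 3 ∣ N),
    W.IsModularModelOfLevel W.conductorLevel

/-- the shape of the top theorem of the project (to be proved in `S58/Top.lean`) -/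
def s58_TopShape : Prop :=
  s58_FrobSeam → s58_FixSeam → s58_S35Stmt → s58_S36Stmt → s58_OldLiftSeam → s58_Main

end Fermat.Agent.S58
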