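/-
S58, project directory `Fermat/Agent/S58/`: THE MODULAR-SIDE SEAMS (definitions only).
Architect: helper21.  Prefix `s58_`.  Each `Prop` below is one cell; its owner proves
`theorem s58<x>_… : s58_…Seam` in a new file.

* `s58_ChebSeam`   [CHEB-EX]  every `σ` agrees on any finite `L/ℚ` with a Frobenius element at a
                              prime outside any finite set (from `dsC_chebotarev`).
* `s58_CmpSeam`    [CMP]      Frobenius charpolys of `ρ₁` kill the Frobenii of `ρ₂` outside a finite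
                              set ⟹ `χ_{ρ₁(σ)}(ρ₂(σ)) = 0` for all `σ`.
* `s58_DetSeam`    [CMP-DET]  `det ρ(Frob_ℓ) = ℓ` outside a finite set ⟹ `det ρ = ε` (`cya_eps`).
* `s58_ZSeam`      [Z]        `χ_{ρ₁(σ)}(ρ₂(σ)) = 0` for all `σ` and `ρ₂` not everywhere scalar ⟹
                              equal characteristic polynomials.
* `s58_IrrAbsSeam` [IRR-ABS]  irreducible + an involution of determinant `-1` (char ≠ 2) ⟹
                              absolutely irreducible.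
* `s58_BN2Seam`    [BN2]      two-dimensional Brauer–Nesbitt (char ≠ 2).
* `s58_OddSeam`    [ODD]      `ε(c) = -1` for every involution `c ≠ 1` (`p` odd).
* `s58_CoefSeam`   [COEF]     eigencharacter of a normalised eigenform with a complete DVR
                              receiving its values injectively.
* `s58_TateSeam`   [TATE]     the `lam`-adic Tate module of `W` as a `GaloisRepAdic ℤ_[lam]` with its
                              level maps to `W(ℚ̄)[lam ^ n]`.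
-/
import Mathlib
import Fermat.Agent.S58.Seams
import Fermat.Agent.JT3.Algebra.CycloAdic

set_option autoImplicit false

open Polynomial IsLocalRing
open scoped WeierstrassCurve.Affine

namespace Fermat.Agent.S58

/-- **[CHEB-EX]** -/
def s58_ChebSeam : Prop :=
  ∀ (L : IntermediateField ℚ s58_Qb), FiniteDimensional ℚ L → ∀ (S : Finset ℕ) (σ : s58_G),
    ∃ (ℓ : ℕ) (A : ValuationSubring s58_Qb) (τ : s58_G),
      ℓ.Prime ∧ ℓ ∉ S ∧ A.LiesOverPrime ℓ ∧ A.IsFrobeniusAt τ ℓ ∧ ∀ x ∈ L, τ x = σ x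

/-- **[CMP]** -/
def s58_CmpSeam : Prop :=
  ∀ (O : Type) [CommRing O] [IsDomain O] [IsDiscreteValuationRing O]
    (ρ₁ ρ₂ : GaloisRepAdic O) (S : Finset ℕ) (t d : ℕ → O),
    (∀ ℓ : ℕ, ℓ.Prime → ℓ ∉ S → ∀ A : ValuationSubring s58_Qb, A.LiesOverPrime ℓ →
      ∀ σ : s58_G, A.IsFrobeniusAt σ ℓ →
        LinearMap.charpoly (ρ₁.ρ σ) = X ^ 2 - C (t ℓ) * X + C (d ℓ)) →
    (∀ ℓ : ℕ, ℓ.Prime → ℓ ∉ S → ∀ A : ValuationSubring s58_Qb, A.LiesOverPrime ℓ →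
      ∀ σ : s58_G, A.IsFrobeniusAt σ ℓ →
        (ρ₂.ρ σ) ^ 2 - t ℓ • ρ₂.ρ σ + d ℓ • (1 : Module.End O ρ₂.V) = 0) →
    ∀ σ : s58_G, Polynomial.aeval (ρ₂.ρ σ) (LinearMap.charpoly (ρ₁.ρ σ)) = 0

/-- **[CMP-DET]** -/
def s58_DetSeam : Prop :=
  ∀ (p : ℕ) [Fact p.Prime] (O : Type) [CommRing O] [IsDomain O] [IsDiscreteValuationRing O]
    [IsAdicComplete (maximalIdeal O) O] (hp : (p : O) ∈ maximalIdeal O)
    (ρ : GaloisRepAdic O) (S : Finset ℕ),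
    (∀ ℓ : ℕ, ℓ.Prime → ℓ ∉ S → ∀ A : ValuationSubring s58_Qb, A.LiesOverPrime ℓ →
      ∀ σ : s58_G, A.IsFrobeniusAt σ ℓ → LinearMap.det (ρ.ρ σ) = (ℓ : O)) →
    ∀ σ : s58_G, LinearMap.det (ρ.ρ σ) = Fermat.Agent.JT3.cya_eps p O hp σ

/-- **[Z]** -/
def s58_ZSeam : Prop :=
  ∀ (O : Type) [CommRing O] [IsDomain O] [IsLocalRing O] (ρ₁ ρ₂ : GaloisRepAdic O),
    (∀ σ : s58_G, Polynomial.aeval (ρ₂.ρ σ) (LinearMap.charpoly (ρ₁.ρ σ)) = 0) →
    (∃ σ : s58_G, ∀ s : O, ρ₂.ρ σ ≠ s • (1 : Module.End O ρ₂.V)) →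
    ∀ σ : s58_G, LinearMap.charpoly (ρ₁.ρ σ) = LinearMap.charpoly (ρ₂.ρ σ)

/-- **[IRR-ABS]** -/
def s58_IrrAbsSeam : Prop :=
  ∀ (k : Type) [Field k] (ρ : ResidualGaloisRep k), (2 : k) ≠ 0 → ρ.IsIrreducible →
    (∃ c : s58_G, c * c = 1 ∧ LinearMap.det (ρ.ρ c) = -1) → ρ.IsAbsolutelyIrreducible

/-- **[BN2]** -/
def s58_BN2Seam : Prop :=
  ∀ (k₁ k₂ : Type) [Field k₁] [Field k₂] (j : k₁ →+* k₂) (ρ₁ : ResidualGaloisRep k₁)
    (ρ₂ : ResidualGaloisRep k₂), (2 : k₂) ≠ 0 → ρ₁.IsAbsolutelyIrreducible →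
    (∀ σ : s58_G, LinearMap.charpoly (ρ₂.ρ σ) = (LinearMap.charpoly (ρ₁.ρ σ)).map j) →
    ρ₂.IsAbsolutelyIrreducible

/-- **[ODD]** -/
def s58_OddSeam : Prop :=
  ∀ (p : ℕ) [Fact p.Prime], p ≠ 2 → ∀ (O : Type) [CommRing O] [IsLocalRing O]
    [IsAdicComplete (maximalIdeal O) O] (hp : (p : O) ∈ maximalIdeal O) (c : s58_G),
    c * c = 1 → c ≠ 1 → Fermat.Agent.JT3.cya_eps p O hp c = -1

/-- **[COEF]** -/
def s58_CoefSeam : Prop :=
  ∀ {M : ℕ} [NeZero M] {g : CuspForm (CongruenceSubgroup.Gamma0 M) 2},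
    g.IsNormalizedEigenform → ∀ (lam : ℕ) [Fact lam.Prime] (S : Finset ℕ),
    ∃ (O' : Type) (_ : CommRing O') (_ : IsDomain O') (_ : IsDiscreteValuationRing O')
      (_ : IsAdicComplete (maximalIdeal O') O') (_ : Finite (ResidueField O')) (_ : CharZero O')
      (_ : (lam : O') ∈ maximalIdeal O')
      (chig : CuspForm.heckeAlgebra M 2 (↑S : Set ℕ) →+* ℂ)
      (_ : ∀ (ℓ : ℕ) (hℓ : ℓ.Prime) (hℓM : ¬ ℓ ∣ M) (hℓS : ℓ ∉ (↑S : Set ℕ)),
        chig (CuspForm.heckeAlgebra.T hℓ hℓM hℓS) = ModularFormClass.qCoeff g ℓ)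
      (iota : chig.range →+* O'), Function.Injective iota

/-- **[TATE]** the Tate module of `W` with its level maps -/
def s58_TateSeam : Prop :=
  ∀ (W : WeierstrassCurve ℤ), W.Δ ≠ 0 → ∀ (lam : ℕ) [Fact lam.Prime], lam ≠ 2 →
    ∃ (ρ : GaloisRepAdic ℤ_[lam]) (π : ℕ → ρ.V →+ s58_E W),
      (∀ n v, lam ^ n • π n v = 0) ∧
      (∀ n v, lam • π (n + 1) v = π n v) ∧
      (∀ n (σ : s58_G) v, π n (ρ.ρ σ v) = σ • π n v) ∧
      (∀ n (a : ℤ_[lam]) v, π n (a • v) = (PadicInt.toZModPow n a).val • π n v) ∧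
      (∀ n (P : s58_E W), lam ^ n • P = 0 → ∃ v, π n v = P) ∧
      (∀ n v, π n v = 0 → ∃ w, v = (lam : ℤ_[lam]) ^ n • w) ∧
      (∀ v, (∀ n, π n v = 0) → v = 0)

end Fermat.Agent.S58
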