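/-
Project S58, cell [CMP-DET] (helper4).  Prefix `s58cd_`.

THE DETERMINANT OF AN ADIC REPRESENTATION WITH `det ρ(Frob_ℓ) = ℓ` IS THE CYCLOTOMIC CHARACTER.
`O` a complete noetherian local ring with `p ∈ 𝔪`, `ρ : GaloisRepAdic O`, `S` a finite set of
primes.  If `det ρ(φ) = ℓ` for every Frobenius element `φ` at every prime `ℓ ∉ S`, then
`det ρ(σ) = ε(σ)` (`cya_eps`) for EVERY `σ ∈ Gal(ℚ̄/ℚ)` (`s58cd_main`), hence the seam
`s58cd_detSeam : s58_DetSeam`.

Proof.  Weak Chebotarev `Fermat.Agent.WC.wc_main` gives, on a finite normal level `L` on which both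
`ρ` and `ε` are trivial modulo `𝔪ⁿ`, `σ = φ ^ k` with `φ` a Frobenius element at a prime
`ℓ ∉ S ∪ {p}`; then `det ρ(φ ^ k) = ℓ ^ k = ε(φ ^ k)` (`cya_eps_frob`), both sides are congruent
modulo `𝔪ⁿ` to their values at `σ` (`s58cm_det_congr`, `cya_eps_continuous`), and `⋂ 𝔪ⁿ = 0` (Krull).
-/
import Mathlib
import Fermat.Agent.S58.SeamsMod
import Fermat.Agent.S58.Cmp

set_option autoImplicit false
set_option linter.style.haveILetI false

open Polynomial IsLocalRing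

namespace Fermat.Agent.S58

open Fermat.Agent.JT3

local notation "GQ" => (AlgebraicClosure ℚ ≃ₐ[ℚ] AlgebraicClosure ℚ)
local notation "Qbar" => AlgebraicClosure ℚ

section Main

variable (p : ℕ) [Fact p.Prime] {O : Type} [CommRing O] [IsLocalRing O] [IsNoetherianRing O]
  [IsAdicComplete (maximalIdeal O) O]

/-- **[CMP-DET]**: `det ρ(Frob_ℓ) = ℓ` for all primes `ℓ` outside a finite set forces
`det ρ = ε`, the `p`-adic cyclotomic character. -/
theorem s58cd_main (hp : (p : O) ∈ maximalIdeal O) (ρ : GaloisRepAdic O) (S : Finset ℕ)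
    (hF : ∀ ℓ : ℕ, ℓ.Prime → ℓ ∉ S → ∀ P : ValuationSubring Qbar, P.LiesOverPrime ℓ →
      ∀ φ : GQ, P.IsFrobeniusAt φ ℓ → LinearMap.det (ρ.ρ φ) = (ℓ : O)) (σ : GQ) :
    LinearMap.det (ρ.ρ σ) = cya_eps p O hp σ := by
  -- the difference lies in every power of the maximal ideal
  have hsmall : ∀ n : ℕ, LinearMap.det (ρ.ρ σ) - cya_eps p O hp σ ∈ maximalIdeal O ^ n := by
    intro n
    obtain ⟨L₁, hL₁, h1⟩ := ρ.isAdicContinuous n
    obtain ⟨L₂, hL₂, h2⟩ := cya_eps_continuous p O hp n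
    obtain ⟨L, hLfd, hLn, h1L, h2L⟩ := s58cm_exists_normal L₁ L₂ hL₁ hL₂
    haveI := hLfd
    haveI := hLn
    obtain ⟨ℓ, P, φ, k, hℓ, hℓS, hP, hφ, hk⟩ := Fermat.Agent.WC.wc_main L (insert p S) σ
    have hℓp : ℓ ≠ p := fun h => hℓS (h ▸ Finset.mem_insert_self _ _)
    have hℓS' : ℓ ∉ S := fun h => hℓS (Finset.mem_insert_of_mem h)
    -- the error term
    have hδ : ∀ x ∈ L, (σ⁻¹ * φ ^ k) x = x := by
      intro x hx
      rw [AlgEquiv.mul_apply, hk x hx]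
      show (σ⁻¹ * σ) x = x
      rw [inv_mul_cancel]
      rfl
    have hprod : φ ^ k = σ * (σ⁻¹ * φ ^ k) := (mul_inv_cancel_left σ (φ ^ k)).symm
    have hs1 : gcl_Small (maximalIdeal O ^ n) (ρ.ρ (φ ^ k) - ρ.ρ σ) := by
      have h5 : ρ.ρ (φ ^ k) - ρ.ρ σ = ρ.ρ σ * (ρ.ρ (σ⁻¹ * φ ^ k) - 1) := by
        rw [mul_sub, mul_one, ← map_mul, ← hprod]
      rw [h5]
      refine gcl_Small.mul_left (fun v => ?_) _
      rw [LinearMap.sub_apply, Module.End.one_apply]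
      exact h1 _ (fun x hx => hδ x (h1L hx)) v
    have hdet : LinearMap.det (ρ.ρ (φ ^ k)) - LinearMap.det (ρ.ρ σ) ∈ maximalIdeal O ^ n :=
      s58cm_det_congr ρ.finrank_eq _ _ _ hs1
    have heps : cya_eps p O hp (φ ^ k) - cya_eps p O hp σ ∈ maximalIdeal O ^ n := by
      have h5 : cya_eps p O hp (φ ^ k) - cya_eps p O hp σ =
          cya_eps p O hp σ * (cya_eps p O hp (σ⁻¹ * φ ^ k) - 1) := by
        rw [mul_sub, mul_one, ← map_mul, ← hprod]
      rw [h5]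
      exact Ideal.mul_mem_left _ _ (h2 _ (fun x hx => hδ x (h2L hx)))
    have hpow : LinearMap.det (ρ.ρ (φ ^ k)) = cya_eps p O hp (φ ^ k) := by
      rw [map_pow, map_pow, map_pow, hF ℓ hℓ hℓS' P hP φ hφ, cya_eps_frob p O hp hℓ hℓp P hP φ hφ]
    have key : LinearMap.det (ρ.ρ σ) - cya_eps p O hp σ =
        (cya_eps p O hp (φ ^ k) - cya_eps p O hp σ) -
          (LinearMap.det (ρ.ρ (φ ^ k)) - LinearMap.det (ρ.ρ σ)) := by
      rw [hpow]
      ring
    rw [key]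
    exact Ideal.sub_mem _ heps hdet
  -- Krull's intersection theorem
  rw [← sub_eq_zero]
  have hmem : LinearMap.det (ρ.ρ σ) - cya_eps p O hp σ ∈ ⨅ n : ℕ, maximalIdeal O ^ n :=
    (Ideal.mem_iInf).mpr hsmall
  rw [Ideal.iInf_pow_eq_bot_of_isLocalRing (maximalIdeal O)
    (IsLocalRing.maximalIdeal.isMaximal O).ne_top] at hmem
  exact (Submodule.mem_bot O).mp hmem

end Main

/-- **[CMP-DET]**, the seam of `S58/SeamsMod.lean`. -/
theorem s58cd_detSeam : s58_DetSeam := by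
  intro p _ O _ _ _ _ hp ρ S hF σ
  exact s58cd_main p hp ρ S hF σ

end Fermat.Agent.S58
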