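/-
S58 [BN2] (helper19): TWO-DIMENSIONAL BRAUER–NESBITT, in the form of the seam `s58_BN2Seam`.

`j : k₁ →+* k₂`, `ρ₁` absolutely irreducible over `k₁`, `χ_{ρ₂(σ)} = j(χ_{ρ₁(σ)})` for every `σ`
⟹ `ρ₂` absolutely irreducible.

Route (no characteristic assumption is needed in the end):
* `s58bn_eq_zero_of_trace_mul`: the trace form `(f, g) ↦ tr (f g)` on `End V` is nondegenerate;
* `s58bn_span_transport` (ANY dimension, any monoid `G`): if `tr r₂(g) = j (tr r₁(g))` for all
  `g`, `dim V₂ = dim V₁` and `r₁(G)` spans `End V₁`, then `r₂(G)` spans `End V₂`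
  [a basis `r₁(g_i)` of `End V₁` inside `r₁(G)` has an invertible Gram matrix
  `T = (tr r₁(g_i g_l))`; the Gram matrix of the `r₂(g_i)` is `j(T)`, invertible, so the
  `r₂(g_i)` are linearly independent, and there are `dim End V₂` of them];
* `s58bn_irreducible_of_span`: if `ρ(G)` spans `End_k V` then `ρ ⊗ K` is irreducible for every
  field extension `K/k`;
* Burnside for `ρ₁` = S53 `residual_span_range_eq_top`.
Prefix `s58bn_`.
-/
import Mathlib
import Fermat.Agent.S53.Burnside
import Fermat.Agent.S58.CharpolyCmp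
import Fermat.Agent.S58.SeamsMod

set_option autoImplicit false

open Module
open scoped TensorProduct

namespace Fermat.Agent.S58

section Abstract

/-- the trace form on `End V` is nondegenerate -/
theorem s58bn_eq_zero_of_trace_mul {k V : Type*} [Field k] [AddCommGroup V] [Module k V]
    [FiniteDimensional k V] (f : Module.End k V)
    (h : ∀ x : Module.End k V, LinearMap.trace k V (f * x) = 0) : f = 0 := by
  classical
  let bV := Module.finBasis k V
  let e := LinearMap.toMatrixAlgEquiv bV
  have he : ∀ g : Module.End k V, (e g).trace = LinearMap.trace k V g := fun g => by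
    rw [LinearMap.trace_eq_matrix_trace k bV g]; rfl
  have h0 : e f = 0 := by
    rw [Matrix.ext_iff_trace_mul_right]
    intro X
    rw [zero_mul, Matrix.trace_zero]
    have := h (e.symm X)
    rw [← he, map_mul, AlgEquiv.apply_symm_apply] at this
    exact this
  exact e.injective (by rw [h0, map_zero])

/-- transport, with a chosen basis of `End V₁` inside `r₁(G)` -/
theorem s58bn_span_transport_aux {k₁ k₂ : Type*} [Field k₁] [Field k₂] (j : k₁ →+* k₂)
    {G : Type*} [Monoid G] {V₁ V₂ : Type*} [AddCommGroup V₁] [Module k₁ V₁]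
    [FiniteDimensional k₁ V₁] [AddCommGroup V₂] [Module k₂ V₂] [FiniteDimensional k₂ V₂]
    (hrank : Module.finrank k₂ V₂ = Module.finrank k₁ V₁)
    (r₁ : G →* Module.End k₁ V₁) (r₂ : G →* Module.End k₂ V₂)
    (htr : ∀ g, LinearMap.trace k₂ V₂ (r₂ g) = j (LinearMap.trace k₁ V₁ (r₁ g)))
    {ι : Type*} [Fintype ι] [DecidableEq ι] (b : Basis ι k₁ (Module.End k₁ V₁)) (g : ι → G)
    (hg : ∀ i, r₁ (g i) = b i) :
    Submodule.span k₂ (Set.range r₂) = ⊤ := by
  -- the Gram matrix
  set T : Matrix ι ι k₁ := fun i l => LinearMap.trace k₁ V₁ (r₁ (g i * g l)) with hTdef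
  have hTb : ∀ i l, T i l = LinearMap.trace k₁ V₁ (b i * b l) := fun i l => by
    rw [hTdef]; simp only; rw [map_mul, hg, hg]
  have hT : T.det ≠ 0 := by
    intro h0
    obtain ⟨v, hv0, hv⟩ := Matrix.exists_vecMul_eq_zero_iff.mpr h0
    apply hv0
    have hf : ∀ x : Module.End k₁ V₁, LinearMap.trace k₁ V₁ ((∑ i, v i • b i) * x) = 0 := by
      intro x
      have hx : x ∈ Submodule.span k₁ (Set.range b) := by rw [b.span_eq]; trivial
      induction hx using Submodule.span_induction with
      | mem x hx =>
        obtain ⟨l, rfl⟩ := hx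
        have := congrFun hv l
        rw [Matrix.vecMul, dotProduct] at this
        simp only [Pi.zero_apply] at this
        rw [Finset.sum_mul, map_sum, ← this]
        refine Finset.sum_congr rfl fun i _ => ?_
        rw [smul_mul_assoc, map_smul, smul_eq_mul, hTb]
      | zero => rw [mul_zero, map_zero]
      | add x y _ _ hx hy => rw [mul_add, map_add, hx, hy, add_zero]
      | smul c x _ hx => rw [mul_smul_comm, map_smul, hx, smul_zero]
    have hsum := s58bn_eq_zero_of_trace_mul _ hf
    have hli := Fintype.linearIndependent_iff.mp b.linearIndependent v hsum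
    exact funext hli
  -- the images under `r₂` are linearly independent
  have hli : LinearIndependent k₂ (fun i => r₂ (g i)) := by
    rw [Fintype.linearIndependent_iff]
    intro a ha
    have hdet : (T.map j).det ≠ 0 := by
      rw [← RingHom.mapMatrix_apply, ← RingHom.map_det]
      exact fun h => hT ((map_eq_zero j).mp h)
    have hvec : Matrix.vecMul a (T.map j) = 0 := by
      funext l
      rw [Matrix.vecMul, dotProduct]
      simp only [Pi.zero_apply, Matrix.map_apply]
      have h2 := congrArg (fun F => LinearMap.trace k₂ V₂ (F * r₂ (g l))) ha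
      simp only [zero_mul, map_zero] at h2
      rw [Finset.sum_mul, map_sum] at h2
      rw [← h2]
      refine Finset.sum_congr rfl fun i _ => ?_
      rw [smul_mul_assoc, map_smul, smul_eq_mul, ← map_mul, htr]
    have := Matrix.eq_zero_of_vecMul_eq_zero hdet hvec
    exact fun i => congrFun this i
  have hcard : Fintype.card ι = Module.finrank k₂ (Module.End k₂ V₂) := by
    rw [← Module.finrank_eq_card_basis b, Module.finrank_linearMap, Module.finrank_linearMap,
      hrank]
  have hspan := hli.span_eq_top_of_card_eq_finrank' hcard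
  rw [eq_top_iff, ← hspan]
  refine Submodule.span_mono ?_
  rintro _ ⟨i, rfl⟩
  exact ⟨g i, rfl⟩

/-- **transport of the Burnside span along a trace-compatible pair of representations** -/
theorem s58bn_span_transport {k₁ k₂ : Type*} [Field k₁] [Field k₂] (j : k₁ →+* k₂)
    {G : Type*} [Monoid G] {V₁ V₂ : Type*} [AddCommGroup V₁] [Module k₁ V₁]
    [FiniteDimensional k₁ V₁] [AddCommGroup V₂] [Module k₂ V₂] [FiniteDimensional k₂ V₂]
    (hrank : Module.finrank k₂ V₂ = Module.finrank k₁ V₁)
    (r₁ : G →* Module.End k₁ V₁) (r₂ : G →* Module.End k₂ V₂)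
    (htr : ∀ g, LinearMap.trace k₂ V₂ (r₂ g) = j (LinearMap.trace k₁ V₁ (r₁ g)))
    (h₁ : Submodule.span k₁ (Set.range r₁) = ⊤) :
    Submodule.span k₂ (Set.range r₂) = ⊤ := by
  classical
  let b := Basis.ofSpan (K := k₁) (s := Set.range r₁) h₁.ge
  have := FiniteDimensional.fintypeBasisIndex b
  have hb : ∀ i, ∃ g, r₁ g = b i := fun i => Basis.ofSpan_subset h₁.ge ⟨i, rfl⟩
  choose g hg using hb
  exact s58bn_span_transport_aux j hrank r₁ r₂ htr b g hg

end Abstract

section BaseChange

/-- a subspace of `K ⊗ V` stable under the base change of every endomorphism of `V` is trivial -/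
theorem s58bn_stable_trivial {k V : Type*} [Field k] [AddCommGroup V] [Module k V]
    [FiniteDimensional k V] (K : Type*) [Field K] [Algebra k K] (W : Submodule K (K ⊗[k] V))
    (hW : ∀ f : Module.End k V, ∀ x ∈ W, f.baseChange K x ∈ W) : W = ⊥ ∨ W = ⊤ := by
  classical
  by_cases hbot : W = ⊥
  · exact Or.inl hbot
  right
  obtain ⟨w, hwW, hw0⟩ := (Submodule.ne_bot_iff W).mp hbot
  let b := Module.finBasis k V
  let bK := Algebra.TensorProduct.basis K b
  obtain ⟨i₀, hi₀⟩ : ∃ i, bK.repr w i ≠ 0 := by
    by_contra hcon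
    push Not at hcon
    apply hw0
    apply bK.repr.injective
    ext i
    simp [hcon i]
  rw [eq_top_iff, ← bK.span_eq, Submodule.span_le]
  rintro _ ⟨l, rfl⟩
  let f : Module.End k V := b.constr k (fun i => if i = i₀ then b l else 0)
  have hfb : ∀ i, f.baseChange K (bK i) = if i = i₀ then bK l else 0 := by
    intro i
    rw [Algebra.TensorProduct.basis_apply, LinearMap.baseChange_tmul, Basis.constr_basis]
    split_ifs with h
    · rw [Algebra.TensorProduct.basis_apply]
    · rw [TensorProduct.tmul_zero]
  have hfw : f.baseChange K w = bK.repr w i₀ • bK l := by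
    conv_lhs => rw [← bK.sum_repr w]
    rw [map_sum]
    simp only [map_smul, hfb, smul_ite, smul_zero]
    rw [Finset.sum_ite_eq' Finset.univ i₀]
    simp
  have h2 := hW f w hwW
  rw [hfw] at h2
  exact (W.smul_mem_iff hi₀).mp h2

/-- if `ρ(G)` spans `End_k V` then `ρ ⊗ K` is irreducible for every extension `K / k` -/
theorem s58bn_irreducible_of_span {k : Type} [Field k] (ρ : ResidualGaloisRep k) (K : Type)
    [Field K] [Algebra k K] (h : Submodule.span k (Set.range ρ.ρ) = ⊤) :
    (ρ.baseChange K).IsIrreducible := by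
  intro W hW
  apply s58bn_stable_trivial K W
  intro f
  have hf : f ∈ Submodule.span k (Set.range ρ.ρ) := by rw [h]; trivial
  induction hf using Submodule.span_induction with
  | mem f hf =>
    obtain ⟨σ, rfl⟩ := hf
    exact hW σ
  | zero =>
    intro x _
    rw [LinearMap.baseChange_zero]
    exact W.zero_mem
  | add f g _ _ hf hg =>
    intro x hx
    rw [LinearMap.baseChange_add]
    exact W.add_mem (hf x hx) (hg x hx)
  | smul c f _ hf =>
    intro x hx
    rw [LinearMap.baseChange_smul, LinearMap.smul_apply, ← algebraMap_smul K c]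
    exact W.smul_mem _ (hf x hx)

end BaseChange

/-- **[BN2]** -/
theorem s58bn_seam : s58_BN2Seam := by
  intro k₁ k₂ _ _ j ρ₁ ρ₂ _ habs hchar
  have h₁ := Fermat.Agent.S53.residual_span_range_eq_top ρ₁ habs
  have htr : ∀ σ, LinearMap.trace k₂ ρ₂.V (ρ₂.ρ σ) = j (LinearMap.trace k₁ ρ₁.V (ρ₁.ρ σ)) := by
    intro σ
    have h := congrArg (fun p => p.coeff 1) (hchar σ)
    simp only [Polynomial.coeff_map] at h
    rw [s58z_charpoly_coeff_one ρ₂.finrank_eq, s58z_charpoly_coeff_one ρ₁.finrank_eq, map_neg,
      neg_inj] at h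
    exact h
  have h₂ := s58bn_span_transport j (by rw [ρ₂.finrank_eq, ρ₁.finrank_eq]) ρ₁.ρ ρ₂.ρ htr h₁
  exact s58bn_irreducible_of_span ρ₂ (AlgebraicClosure k₂) h₂

end Fermat.Agent.S58
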