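/-
Project S58, cell [KL-ALG] (helper9): THE COMPOSITION-ALGEBRA IDENTITY.

`R` a commutative ring, `N : R → ℤ` with the parallelogram law
`N (a + b) + N (a - b) = 2 N a + 2 N b`, multiplicative, `N 1 = 1`.  Then for every `ψ : R`, with
`t := N (ψ + 1) - N ψ - 1`,
  `N (ψ ^ 2 - t ψ + N ψ) = 0`            (`s58q_main`).

Proof: `B a b := N (a + b) - N a - N b` is biadditive (Jordan–von Neumann over the torsion-free
group `ℤ`), `B (ψ a) (ψ b) = N ψ · B a b`, `B (ψ²) 1 = t² - 2 N ψ` (expand `N ((ψ + 1)²)`), and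
expand `N (ψ² - t ψ + N ψ)`.

Mathlib only.  Prefix `s58q_`.
-/
import Mathlib

set_option autoImplicit false

namespace Fermat.Agent.S58

section

variable {R : Type*} [CommRing R] (N : R → ℤ)

/-- the polar form of `N`. -/
def s58q_B (a b : R) : ℤ := N (a + b) - N a - N b

variable (hpar : ∀ a b : R, N (a + b) + N (a - b) = 2 * N a + 2 * N b)

include hpar

theorem s58q_N_zero : N 0 = 0 := by
  have h := hpar 0 0
  simp only [add_zero, sub_zero] at h
  linarith

theorem s58q_N_neg (a : R) : N (-a) = N a := by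
  have h := hpar 0 a
  rw [zero_add, zero_sub, s58q_N_zero N hpar] at h
  linarith

theorem s58q_N_sub_comm (a b : R) : N (a - b) = N (b - a) := by
  rw [← s58q_N_neg N hpar (a - b), neg_sub]

/-- `2 B a b = N (a + b) - N (a - b)`. -/
theorem s58q_two_B (a b : R) : 2 * s58q_B N a b = N (a + b) - N (a - b) := by
  have h := hpar a b
  unfold s58q_B
  linarith

omit hpar in
theorem s58q_B_comm (a b : R) : s58q_B N a b = s58q_B N b a := by
  unfold s58q_B
  rw [add_comm a b]
  ring

/-- the difference form `D a b := N (a + b) - N (a - b)` satisfies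
`D (a + c) b + D (a - c) b = 2 D a b`. -/
theorem s58q_D_aux (a b c : R) :
    (N (a + c + b) - N (a + c - b)) + (N (a - c + b) - N (a - c - b)) =
      2 * (N (a + b) - N (a - b)) := by
  have h1 := hpar (a + b) c
  have h2 := hpar (a - b) c
  have e1 : a + b + c = a + c + b := by ring
  have e2 : a + b - c = a - c + b := by ring
  have e3 : a - b + c = a + c - b := by ring
  have e4 : a - b - c = a - c - b := by ring
  rw [e1, e2] at h1
  rw [e3, e4] at h2
  linarith

theorem s58q_D_zero_left (b : R) : N (0 + b) - N (0 - b) = 0 := by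
  rw [zero_add, zero_sub, s58q_N_neg N hpar]
  ring

theorem s58q_D_two (a b : R) :
    N (a + a + b) - N (a + a - b) = 2 * (N (a + b) - N (a - b)) := by
  have h := s58q_D_aux N hpar a b a
  have h0 := s58q_D_zero_left N hpar b
  rw [sub_self] at h
  linarith

theorem s58q_D_add (u v b : R) :
    N (u + v + b) - N (u + v - b) =
      (N (u + b) - N (u - b)) + (N (v + b) - N (v - b)) := by
  have h := s58q_D_aux N hpar (u + v) b (u - v)
  have e1 : u + v + (u - v) = u + u := by ring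
  have e2 : u + v - (u - v) = v + v := by ring
  rw [e1, e2, s58q_D_two N hpar u b, s58q_D_two N hpar v b] at h
  linarith

/-- **`B` is additive in the first variable.** -/
theorem s58q_B_add_left (u v b : R) :
    s58q_B N (u + v) b = s58q_B N u b + s58q_B N v b := by
  have h := s58q_D_add N hpar u v b
  rw [← s58q_two_B N hpar, ← s58q_two_B N hpar, ← s58q_two_B N hpar] at h
  linarith

theorem s58q_B_add_right (a u v : R) :
    s58q_B N a (u + v) = s58q_B N a u + s58q_B N a v := by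
  rw [s58q_B_comm N a (u + v), s58q_B_add_left N hpar, s58q_B_comm N u a, s58q_B_comm N v a]

theorem s58q_B_zero_left (b : R) : s58q_B N 0 b = 0 := by
  have h := s58q_B_add_left N hpar 0 0 b
  rw [add_zero] at h
  linarith

theorem s58q_B_zero_right (a : R) : s58q_B N a 0 = 0 := by
  rw [s58q_B_comm, s58q_B_zero_left N hpar]

theorem s58q_B_neg_left (a b : R) : s58q_B N (-a) b = - s58q_B N a b := by
  have h := s58q_B_add_left N hpar a (-a) b
  rw [add_neg_cancel, s58q_B_zero_left N hpar] at h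
  linarith

theorem s58q_B_neg_right (a b : R) : s58q_B N a (-b) = - s58q_B N a b := by
  rw [s58q_B_comm, s58q_B_neg_left N hpar, s58q_B_comm]

/-- `B · b` as an additive map. -/
def s58q_Bhom (b : R) : R →+ ℤ where
  toFun a := s58q_B N a b
  map_zero' := s58q_B_zero_left N hpar b
  map_add' u v := s58q_B_add_left N hpar u v b

theorem s58q_B_zsmul_left (n : ℤ) (a b : R) : s58q_B N (n • a) b = n * s58q_B N a b := by
  have h := map_zsmul (s58q_Bhom N hpar b) n a
  simpa [s58q_Bhom] using h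

theorem s58q_B_zsmul_right (n : ℤ) (a b : R) : s58q_B N a (n • b) = n * s58q_B N a b := by
  rw [s58q_B_comm, s58q_B_zsmul_left N hpar, s58q_B_comm]

theorem s58q_B_intCast_mul_left (n : ℤ) (a b : R) :
    s58q_B N ((n : R) * a) b = n * s58q_B N a b := by
  rw [← zsmul_eq_mul, s58q_B_zsmul_left N hpar]

theorem s58q_B_intCast_mul_right (n : ℤ) (a b : R) :
    s58q_B N a ((n : R) * b) = n * s58q_B N a b := by
  rw [← zsmul_eq_mul, s58q_B_zsmul_right N hpar]

/-- `B a a = 2 N a`. -/
theorem s58q_B_self (a : R) : s58q_B N a a = 2 * N a := by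
  have h := hpar a a
  rw [sub_self, s58q_N_zero N hpar] at h
  unfold s58q_B
  linarith

omit hpar in
theorem s58q_N_add (a b : R) : N (a + b) = N a + N b + s58q_B N a b := by
  unfold s58q_B
  ring

theorem s58q_N_add3 (a b c : R) :
    N (a + b + c) = N a + N b + N c + s58q_B N a b + s58q_B N a c + s58q_B N b c := by
  rw [s58q_N_add N (a + b) c, s58q_N_add N a b, s58q_B_add_left N hpar]
  ring

/-- `N (n • a) = n² N a`. -/
theorem s58q_N_zsmul (n : ℤ) (a : R) : N (n • a) = n ^ 2 * N a := by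
  have h := s58q_B_self N hpar (n • a)
  rw [s58q_B_zsmul_left N hpar, s58q_B_zsmul_right N hpar, s58q_B_self N hpar] at h
  have h2 : 2 * N (n • a) = 2 * (n ^ 2 * N a) := by rw [← h]; ring
  linarith

theorem s58q_N_intCast_mul (n : ℤ) (a : R) : N ((n : R) * a) = n ^ 2 * N a := by
  rw [← zsmul_eq_mul, s58q_N_zsmul N hpar]

variable (hmul : ∀ a b : R, N (a * b) = N a * N b)

include hmul

omit hpar in
/-- `B (ψ a) (ψ b) = N ψ · B a b`. -/
theorem s58q_B_mul (ψ a b : R) : s58q_B N (ψ * a) (ψ * b) = N ψ * s58q_B N a b := by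
  unfold s58q_B
  rw [← mul_add, hmul, hmul, hmul]
  ring

variable (hone : N 1 = 1)

include hone

omit hmul in
theorem s58q_N_intCast (n : ℤ) : N (n : R) = n ^ 2 := by
  have h := s58q_N_intCast_mul N hpar n 1
  rw [mul_one, hone, mul_one] at h
  exact h

/-- `B (ψ²) 1 = t² - 2 N ψ`, `t = B ψ 1`. -/
theorem s58q_B_sq_one (ψ : R) :
    s58q_B N (ψ ^ 2) 1 = s58q_B N ψ 1 ^ 2 - 2 * N ψ := by
  set t := s58q_B N ψ 1 with ht
  set d := N ψ with hd
  -- `N ((ψ + 1)²) = N (ψ + 1)²`
  have h1 : N ((ψ + 1) ^ 2) = (d + 1 + t) ^ 2 := by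
    rw [pow_two, hmul, s58q_N_add N ψ 1, hone]
    ring
  have e : (ψ + 1) ^ 2 = ψ ^ 2 + (2 : ℤ) • ψ + 1 := by
    rw [zsmul_eq_mul]; push_cast; ring
  rw [e, s58q_N_add3 N hpar, s58q_N_zsmul N hpar, hone, s58q_B_zsmul_right N hpar,
    s58q_B_zsmul_left N hpar] at h1
  have h2 : N (ψ ^ 2) = d ^ 2 := by rw [pow_two, hmul]; ring
  have h3 : s58q_B N (ψ ^ 2) ψ = d * t := by
    have := s58q_B_mul N hmul ψ ψ 1
    rw [mul_one, ← pow_two] at this
    exact this
  rw [h2, h3] at h1
  linarith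

/-- **the composition-algebra identity**: `N (ψ² - t ψ + N ψ) = 0`, `t = N (ψ + 1) - N ψ - 1`. -/
theorem s58q_main (ψ : R) :
    N (ψ ^ 2 - ((N (ψ + 1) - N ψ - 1 : ℤ) : R) * ψ + ((N ψ : ℤ) : R)) = 0 := by
  have ht : N (ψ + 1) - N ψ - 1 = s58q_B N ψ 1 := by
    unfold s58q_B; rw [hone]
  rw [ht]
  set t := s58q_B N ψ 1 with htdef
  set d := N ψ with hd
  have e : ψ ^ 2 - (t : R) * ψ + (d : R) = ψ ^ 2 + (-t) • ψ + d • (1 : R) := by
    rw [zsmul_eq_mul, zsmul_eq_mul]; push_cast; ring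
  rw [e, s58q_N_add3 N hpar, s58q_N_zsmul N hpar, s58q_N_zsmul N hpar, hone,
    s58q_B_zsmul_right N hpar, s58q_B_zsmul_right N hpar, s58q_B_zsmul_left N hpar,
    s58q_B_zsmul_right N hpar, s58q_B_sq_one N hpar hmul hone]
  have h2 : N (ψ ^ 2) = d ^ 2 := by rw [pow_two, hmul]; ring
  have h3 : s58q_B N (ψ ^ 2) ψ = d * t := by
    have := s58q_B_mul N hmul ψ ψ 1
    rw [mul_one, ← pow_two] at this
    exact this
  rw [h2, h3, ← htdef]
  ring

end

/-- **ℕ-valued form.** -/
theorem s58q_main_nat {R : Type*} [CommRing R] (N : R → ℕ)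
    (hpar : ∀ a b : R, N (a + b) + N (a - b) = 2 * N a + 2 * N b)
    (hmul : ∀ a b : R, N (a * b) = N a * N b) (hone : N 1 = 1) (ψ : R) :
    N (ψ ^ 2 - (((N (ψ + 1) : ℤ) - (N ψ : ℤ) - 1 : ℤ) : R) * ψ + ((N ψ : ℕ) : R)) = 0 := by
  have h := s58q_main (fun a => (N a : ℤ)) (fun a b => by exact_mod_cast hpar a b)
    (fun a b => by exact_mod_cast hmul a b) (by exact_mod_cast hone) ψ
  simp only [Int.cast_natCast] at h
  exact_mod_cast h

end Fermat.Agent.S58
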