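/-
Project S58, cell [IRR-ABS] (helper20).  Prefix `s58ia_`.  Mathlib + prelude definitions only.

IRREDUCIBLE + ODD ⟹ ABSOLUTELY IRREDUCIBLE (dimension two, characteristic `≠ 2`).
`ρ : ResidualGaloisRep k` irreducible, `c` with `c * c = 1` and `det ρ(c) = -1`, `2 ≠ 0` in `k`.
Then `ρ.baseChange K` is irreducible for EVERY field extension `K / k` (`s58ia_main`), in
particular `ρ.IsAbsolutelyIrreducible` (`s58ia_seam : s58_IrrAbsSeam`).

Proof.  `C := ρ(c)` has eigenvectors `v₊`, `v₋` (eigenvalues `1`, `-1`) forming a `k`-basis of `V`.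
A nonzero stable `W' ≤ K ⊗ V` contains some `w = a (1 ⊗ v₊) + b (1 ⊗ v₋) ≠ 0`, hence
`w ± C w`, hence `1 ⊗ v₊` or `1 ⊗ v₋`.  So `{v | 1 ⊗ v ∈ W'}` is a nonzero stable `k`-subspace of
`V`, hence everything, and `W' = ⊤`.
-/
import Mathlib
import Fermat.Prelude.Def_GaloisRep_Residual
import Fermat.Agent.S58.SeamsMod

set_option autoImplicit false
set_option linter.style.haveILetI false

open scoped TensorProduct

namespace Fermat.Agent.S58

local notation "GQ" => (AlgebraicClosure ℚ ≃ₐ[ℚ] AlgebraicClosure ℚ)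

section

variable {k : Type} [Field k] (K : Type) [Field K] [Algebra k K]

/-- the eigenbasis of an involution of determinant `-1` on a plane, characteristic `≠ 2` -/
theorem s58ia_eigenbasis {V : Type*} [AddCommGroup V] [Module k V] (hV : Module.finrank k V = 2)
    (h2 : (2 : k) ≠ 0) (C : Module.End k V) (hC2 : C * C = 1) (hdet : LinearMap.det C = -1) :
    ∃ b : Module.Basis (Fin 2) k V, C (b 0) = b 0 ∧ C (b 1) = -b 1 := by
  haveI : Module.Finite k V := Module.finite_of_finrank_eq_succ hV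
  have hne : (1 : k) ≠ -1 := by
    intro h
    apply h2
    linear_combination h
  have hCC : ∀ v, C (C v) = v := fun v => by
    have := congrArg (fun f : Module.End k V => f v) hC2
    simpa using this
  -- `C ≠ 1`, `C ≠ -1`
  have hC1 : C ≠ 1 := by
    intro h
    rw [h, map_one] at hdet
    exact hne hdet
  have hCm1 : C ≠ -1 := by
    intro h
    have h' : C = (-1 : k) • (1 : Module.End k V) := by rw [h, neg_smul, one_smul]
    rw [h', LinearMap.det_smul, hV, map_one] at hdet
    apply hne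
    linear_combination hdet
  obtain ⟨v, hv⟩ : ∃ v, C v ≠ v := by
    by_contra h
    exact hC1 (LinearMap.ext fun v => not_not.mp fun hv => h ⟨v, hv⟩)
  obtain ⟨v', hv'⟩ : ∃ v, C v ≠ -v := by
    by_contra h
    refine hCm1 (LinearMap.ext fun v => ?_)
    rw [LinearMap.neg_apply, Module.End.one_apply]
    exact not_not.mp fun hv => h ⟨v, hv⟩
  set vp : V := v' + C v' with hvp
  set vm : V := v - C v with hvm
  have hvp0 : vp ≠ 0 := by
    intro h
    apply hv'
    rw [hvp] at h
    exact (eq_neg_of_add_eq_zero_right h)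
  have hvm0 : vm ≠ 0 := by
    intro h
    apply hv
    rw [hvm] at h
    exact (sub_eq_zero.mp h).symm
  have hCp : C vp = vp := by rw [hvp, map_add, hCC, add_comm]
  have hCm : C vm = -vm := by rw [hvm, map_sub, hCC, neg_sub]
  have hli : LinearIndependent k ![vp, vm] := by
    rw [LinearIndependent.pair_iff]
    intro s t hst
    have h1 : s • vp - t • vm = 0 := by
      have := congrArg C hst
      rwa [map_add, map_smul, map_smul, hCp, hCm, smul_neg, map_zero, ← sub_eq_add_neg] at this
    have hs : (2 * s) • vp = 0 := by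
      have : (2 * s) • vp = (s • vp + t • vm) + (s • vp - t • vm) := by
        rw [mul_smul, two_smul]; abel
      rw [this, hst, h1, add_zero]
    have ht : (2 * t) • vm = 0 := by
      have : (2 * t) • vm = (s • vp + t • vm) - (s • vp - t • vm) := by
        rw [mul_smul, two_smul]; abel
      rw [this, hst, h1, sub_zero]
    constructor
    · rcases smul_eq_zero.mp hs with h | h
      · exact (mul_eq_zero.mp h).resolve_left h2
      · exact absurd h hvp0
    · rcases smul_eq_zero.mp ht with h | h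
      · exact (mul_eq_zero.mp h).resolve_left h2
      · exact absurd h hvm0
  let b := basisOfLinearIndependentOfCardEqFinrank hli (by rw [Fintype.card_fin, hV])
  have hb : ⇑b = ![vp, vm] := coe_basisOfLinearIndependentOfCardEqFinrank hli _
  refine ⟨b, ?_, ?_⟩
  · rw [hb]; exact hCp
  · rw [hb]; exact hCm

/-- **[IRR-ABS]**, general form: irreducible + odd ⟹ irreducible after every base field
extension. -/
theorem s58ia_main (ρ : ResidualGaloisRep k) (h2 : (2 : k) ≠ 0) (hirr : ρ.IsIrreducible)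
    (c : GQ) (hc : c * c = 1) (hdet : LinearMap.det (ρ.ρ c) = -1) :
    (ρ.baseChange K).IsIrreducible := by
  have hC2 : ρ.ρ c * ρ.ρ c = 1 := by rw [← map_mul, hc, map_one]
  obtain ⟨b, hb0, hb1⟩ := s58ia_eigenbasis ρ.finrank_eq h2 (ρ.ρ c) hC2 hdet
  have h2K : (2 : K) ≠ 0 := by
    have : (2 : K) = algebraMap k K 2 := by rw [map_ofNat]
    rw [this]
    exact (map_ne_zero (algebraMap k K)).mpr h2
  intro W' hW'
  by_cases hbot : W' = ⊥
  · exact Or.inl hbot
  right
  -- the action on `K ⊗ V`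
  have hact : ∀ (σ : GQ) (a : K) (v : ρ.V),
      (ρ.baseChange K).ρ σ (a ⊗ₜ[k] v) = a ⊗ₜ[k] (ρ.ρ σ v) := fun σ a v =>
    LinearMap.baseChange_tmul _ _ _
  -- the `k`-subspace `{v | 1 ⊗ v ∈ W'}`
  let W : Submodule k ρ.V :=
    Submodule.comap (TensorProduct.mk k K ρ.V 1) (W'.restrictScalars k)
  have hWmem : ∀ v : ρ.V, v ∈ W ↔ (1 : K) ⊗ₜ[k] v ∈ W' := fun v => Iff.rfl
  have hWstab : ∀ σ : GQ, ∀ x ∈ W, ρ.ρ σ x ∈ W := by
    intro σ x hx
    rw [hWmem] at hx ⊢
    rw [← hact]
    exact hW' σ _ hx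
  -- a nonzero element of `W'`
  obtain ⟨w, hw, hw0⟩ := (Submodule.ne_bot_iff W').mp hbot
  let bK := Algebra.TensorProduct.basis K b
  have hbK : ∀ i, bK i = (1 : K) ⊗ₜ[k] b i := fun i => Algebra.TensorProduct.basis_apply b i
  have hrepr : w = bK.repr w 0 • bK 0 + bK.repr w 1 • bK 1 := by
    conv_lhs => rw [← bK.sum_repr w]
    rw [Fin.sum_univ_two]
  set a0 := bK.repr w 0
  set a1 := bK.repr w 1
  have hCw : (ρ.baseChange K).ρ c w = a0 • bK 0 - a1 • bK 1 := by
    rw [hrepr, map_add, map_smul, map_smul, hbK, hbK, hact, hact, hb0, hb1,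
      TensorProduct.tmul_neg, smul_neg, sub_eq_add_neg]
  have hCwmem : a0 • bK 0 - a1 • bK 1 ∈ W' := hCw ▸ hW' c w hw
  have hwmem : a0 • bK 0 + a1 • bK 1 ∈ W' := hrepr ▸ hw
  have h0mem : (2 * a0) • bK 0 ∈ W' := by
    have : (2 * a0) • bK 0 = (a0 • bK 0 + a1 • bK 1) + (a0 • bK 0 - a1 • bK 1) := by
      rw [mul_smul, two_smul]; abel
    rw [this]
    exact W'.add_mem hwmem hCwmem
  have h1mem : (2 * a1) • bK 1 ∈ W' := by
    have : (2 * a1) • bK 1 = (a0 • bK 0 + a1 • bK 1) - (a0 • bK 0 - a1 • bK 1) := by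
      rw [mul_smul, two_smul]; abel
    rw [this]
    exact W'.sub_mem hwmem hCwmem
  -- `W ≠ ⊥`
  have hWne : W ≠ ⊥ := by
    have ha : a0 ≠ 0 ∨ a1 ≠ 0 := by
      by_contra h
      push Not at h
      apply hw0
      rw [hrepr, h.1, h.2, zero_smul, zero_smul, add_zero]
    rcases ha with ha | ha
    · have hmem : bK 0 ∈ W' := by
        have := W'.smul_mem (2 * a0)⁻¹ h0mem
        rwa [smul_smul, inv_mul_cancel₀ (mul_ne_zero h2K ha), one_smul] at this
      intro hW
      have : b 0 ∈ W := by rw [hWmem, ← hbK]; exact hmem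
      rw [hW, Submodule.mem_bot] at this
      exact b.ne_zero 0 this
    · have hmem : bK 1 ∈ W' := by
        have := W'.smul_mem (2 * a1)⁻¹ h1mem
        rwa [smul_smul, inv_mul_cancel₀ (mul_ne_zero h2K ha), one_smul] at this
      intro hW
      have : b 1 ∈ W := by rw [hWmem, ← hbK]; exact hmem
      rw [hW, Submodule.mem_bot] at this
      exact b.ne_zero 1 this
  have hWtop : W = ⊤ := (hirr W hWstab).resolve_left hWne
  -- hence `W' = ⊤`
  rw [eq_top_iff]
  rintro x -
  induction x using TensorProduct.induction_on with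
  | zero => exact W'.zero_mem
  | tmul a v =>
    have hv : v ∈ W := by rw [hWtop]; exact Submodule.mem_top
    rw [hWmem] at hv
    have := W'.smul_mem a hv
    rwa [TensorProduct.smul_tmul', smul_eq_mul, mul_one] at this
  | add x y hx hy => exact W'.add_mem hx hy

end

/-- **[IRR-ABS]** -/
theorem s58ia_seam : s58_IrrAbsSeam := by
  intro k _ ρ h2 hirr hc
  obtain ⟨c, hc2, hdet⟩ := hc
  exact s58ia_main (AlgebraicClosure k) ρ h2 hirr c hc2 hdet

end Fermat.Agent.S58
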