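/-
S58 project, cell [TATE] (helper21).  Prefix `s58t_`.

`s58t_tateSeam : s58_TateSeam` : the `lam`-adic Tate module of `W(ℚ̄)` (`lam` an odd prime,
`Δ ≠ 0`) as a `GaloisRepAdic ℤ_[lam]`, with its level maps to `W(ℚ̄)[lam ^ n]`.  Everything is an
instance of the generic Tate module `JT3/Tate/*` and of the S13 count `ld_torsion_natCard`.
-/
import Mathlib
import Fermat.Agent.S58.SeamsMod
import Fermat.Agent.JT3.Tate.Free
import Fermat.Agent.JT3.Tate.Continuous
import Fermat.Agent.S13.Ladder.Torsion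

set_option autoImplicit false

open scoped WeierstrassCurve.Affine

namespace Fermat.Agent.S58

open Fermat.Agent.JT3 Fermat.Agent.S13

/-- every point of `W(ℚ̄)` is fixed by `Gal(ℚ̄/L)` for a finite `L / ℚ` -/
theorem s58t_fixed (W : WeierstrassCurve ℤ) (P : s58_E W) :
    ∃ L : IntermediateField ℚ s58_Qb, FiniteDimensional ℚ L ∧
      ∀ σ : s58_G, (∀ y ∈ L, σ y = y) → σ • P = P := by
  rcases P with _ | ⟨x, y, h⟩
  · exact ⟨⊥, inferInstance, fun σ _ => rfl⟩
  · refine ⟨IntermediateField.adjoin ℚ {x, y}, ?_, fun σ hσ => ?_⟩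
    · exact IntermediateField.finiteDimensional_adjoin
        (fun z _ => ((AlgebraicClosure.isAlgebraic ℚ).isAlgebraic z).isIntegral)
    · have hx : σ x = x := hσ x (IntermediateField.subset_adjoin ℚ _ (by simp))
      have hy : σ y = y := hσ y (IntermediateField.subset_adjoin ℚ _ (by simp))
      rw [WeierstrassCurve.Affine.Point.algEquiv_smul_def]
      show WeierstrassCurve.Affine.Point.some _ _ _ = _
      congr 1

theorem s58t_card (W : WeierstrassCurve ℤ) (hΔ : W.Δ ≠ 0) (lam : ℕ) [Fact lam.Prime]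
    (hlam : lam ≠ 2) (n : ℕ) :
    Nat.card {x : s58_E W // lam ^ n • x = 0} = lam ^ (2 * n) := by
  have hΔ' : ((s58_WQ W)⁄s58_Qb).Δ ≠ 0 := by
    show ((W.map (Int.castRingHom ℚ)).map (algebraMap ℚ s58_Qb)).Δ ≠ 0
    rw [WeierstrassCurve.map_Δ, WeierstrassCurve.map_Δ]
    simpa using hΔ
  have hodd : Odd (lam ^ n) := (Fact.out : lam.Prime).odd_of_ne_two hlam |>.pow
  obtain ⟨m, hm⟩ := hodd
  rw [hm, ld_torsion_natCard (W := ((s58_WQ W)⁄s58_Qb)) hΔ' m, ← hm, ← pow_mul, mul_comm]

theorem s58t_tateSeam : s58_TateSeam := by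
  intro W hΔ lam _ hlam
  have hcard := s58t_card W hΔ lam hlam
  have hfin : ∀ n : ℕ, Finite {x : s58_E W // lam ^ n • x = 0} := fun n =>
    Nat.finite_of_card_ne_zero (by
      rw [hcard n]; exact pow_ne_zero _ (Fact.out : lam.Prime).pos.ne')
  obtain ⟨hfree, hfinite, hrank⟩ := tm_free (J := s58_E W) (p := lam) 2 hcard
  refine ⟨{ V := tm_T (s58_E W) lam
            finrank_eq := hrank
            ρ := tm_rho (s58_E W) lam s58_G
            isAdicContinuous := tm_adicContinuous hfin (fun x _ => s58t_fixed W x) },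
    tm_proj (s58_E W) lam, ?_, ?_, ?_, ?_, ?_, ?_, ?_⟩
  · exact fun n v => tm_tor v n
  · exact fun n v => tm_compat v n
  · exact fun n σ v => rfl
  · exact fun n a v => rfl
  · exact fun n P hP => tm_exists_of_card 2 hcard n hP
  · exact fun n v hv => tm_exists_eq_smul v n hv
  · exact fun v hv => tm_ext hv

end Fermat.Agent.S58
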