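/-
Project S58, cell [ODD] (helper20).  Prefix `s58od_`.  Mathlib + prelude definitions only.

ARTIN–SCHREIER-LITE.  Let `C` be an algebraically closed field of characteristic `0` and `c` a ring
automorphism of `C` with `c ∘ c = id`, `c ≠ id` (a "complex conjugation").  Then `c` inverts every
root of unity of odd order (`s58od_inv_of_odd`).  No orderings, no degree theory:
with `K := {x | c x = x}`: there is `i` with `i² = -1`, `c i = -i`; `-1` is not a square in `K`;
every norm `x · c x` is a square in `K`, hence sums of squares in `K` are squares in `K`; if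
`u := ζ · c ζ ≠ 1` then `0 = ∑_{j<m} u^j = 1 + ∑_{1≤j<m} (w^j)²` (`w := u^((m+1)/2)`, `w² = u`)
exhibits `-1` as a sum of squares in `K`.

Consequences for Galois representations (`Fermat.Prelude.Def_GaloisRep_LocalConditions`):
a representation with cyclotomic determinant (`DetIsCyclotomic p`, `p` odd) has an odd residual
representation (`s58od_residual_isOdd`), and `det ρ(c) + 1 ∈ (pⁿ)` for every `n`
(`s58od_det_add_one_mem`).
-/
import Mathlib
import Fermat.Prelude.Def_GaloisRep_LocalConditions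
import Fermat.Prelude.Def_GaloisRep_Residual

set_option autoImplicit false

namespace Fermat.Agent.S58

section Field

variable {C : Type*} [Field C]

/-- an involution different from the identity moves some element to its negative -/
theorem s58od_exists_anti (c : C ≃+* C) (hc2 : ∀ x, c (c x) = x) (hc1 : c ≠ RingEquiv.refl C) :
    ∃ δ : C, δ ≠ 0 ∧ c δ = -δ := by
  have : ∃ x, c x ≠ x := by
    by_contra h
    exact hc1 (RingEquiv.ext fun x => not_not.mp fun hx => h ⟨x, hx⟩)
  obtain ⟨x, hx⟩ := this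
  refine ⟨x - c x, fun h => hx (sub_eq_zero.mp h).symm, ?_⟩
  rw [map_sub, hc2]; ring

variable [IsAlgClosed C]

/-- every norm `x · c x` is the square of a `c`-fixed element -/
theorem s58od_norm_eq_sq (c : C ≃+* C) (hc2 : ∀ x, c (c x) = x) (x : C) :
    ∃ t : C, c t = t ∧ t ^ 2 = x * c x := by
  obtain ⟨y, hy⟩ := IsAlgClosed.exists_pow_nat_eq x (n := 2) (by norm_num)
  refine ⟨y * c y, ?_, ?_⟩
  · rw [map_mul, hc2, mul_comm]
  · rw [← hy, map_pow]; ring

variable [CharZero C]

/-- there is a square root of `-1` which is negated by `c` -/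
theorem s58od_exists_i (c : C ≃+* C) (hc2 : ∀ x, c (c x) = x) (hc1 : c ≠ RingEquiv.refl C) :
    ∃ i : C, i ^ 2 = -1 ∧ c i = -i := by
  obtain ⟨δ, hδ0, hδ⟩ := s58od_exists_anti c hc2 hc1
  obtain ⟨e, hce, he⟩ := s58od_norm_eq_sq c hc2 δ
  rw [hδ] at he
  have he0 : e ≠ 0 := by
    intro h
    rw [h] at he
    have : δ * δ = 0 := by linear_combination he
    exact hδ0 (mul_self_eq_zero.mp this)
  refine ⟨δ / e, ?_, ?_⟩
  · rw [div_pow, he]
    field_simp
  · rw [map_div₀, hδ, hce]; ring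

/-- `-1` is not the square of a `c`-fixed element -/
theorem s58od_neg_one_not_sq (c : C ≃+* C) (hc2 : ∀ x, c (c x) = x) (hc1 : c ≠ RingEquiv.refl C)
    (s : C) (hcs : c s = s) : s ^ 2 ≠ -1 := by
  obtain ⟨i, hi, hci⟩ := s58od_exists_i c hc2 hc1
  intro hs
  have hi0 : i ≠ 0 := by
    intro h
    rw [h] at hi
    norm_num at hi
  have h2 : (2 : C) ≠ 0 := two_ne_zero
  have hfac : (s - i) * (s + i) = 0 := by linear_combination hs - hi
  rcases mul_eq_zero.mp hfac with h | h
  · have hsi : s = i := sub_eq_zero.mp h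
    rw [hsi, hci] at hcs
    have : 2 * i = 0 := by linear_combination -hcs
    rcases mul_eq_zero.mp this with h' | h'
    · exact h2 h'
    · exact hi0 h'
  · have hsi : s = -i := by linear_combination h
    rw [hsi, map_neg, hci] at hcs
    have : 2 * i = 0 := by linear_combination hcs
    rcases mul_eq_zero.mp this with h' | h'
    · exact h2 h'
    · exact hi0 h'

/-- a sum of two squares of `c`-fixed elements is the square of a `c`-fixed element -/
theorem s58od_sq_add_sq (c : C ≃+* C) (hc2 : ∀ x, c (c x) = x) (hc1 : c ≠ RingEquiv.refl C)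
    (a b : C) (ha : c a = a) (hb : c b = b) : ∃ t : C, c t = t ∧ t ^ 2 = a ^ 2 + b ^ 2 := by
  obtain ⟨i, hi, hci⟩ := s58od_exists_i c hc2 hc1
  obtain ⟨t, hct, ht⟩ := s58od_norm_eq_sq c hc2 (a + b * i)
  refine ⟨t, hct, ?_⟩
  rw [ht, map_add, map_mul, ha, hb, hci]
  linear_combination (-(b ^ 2)) * hi

/-- a finite sum of squares of `c`-fixed elements is the square of a `c`-fixed element -/
theorem s58od_sum_sq (c : C ≃+* C) (hc2 : ∀ x, c (c x) = x) (hc1 : c ≠ RingEquiv.refl C)
    (f : ℕ → C) (hf : ∀ j, c (f j) = f j) (n : ℕ) :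
    ∃ t : C, c t = t ∧ t ^ 2 = ∑ j ∈ Finset.range n, f j ^ 2 := by
  induction n with
  | zero => exact ⟨0, map_zero c, by simp⟩
  | succ n ih =>
    obtain ⟨t, hct, ht⟩ := ih
    obtain ⟨s, hcs, hs⟩ := s58od_sq_add_sq c hc2 hc1 t (f n) hct (hf n)
    exact ⟨s, hcs, by rw [Finset.sum_range_succ, hs, ht]⟩

/-- **Artin–Schreier-lite**: an involution `c ≠ id` of an algebraically closed field of
characteristic `0` inverts every root of unity of odd order. -/
theorem s58od_inv_of_odd (c : C ≃+* C) (hc2 : ∀ x, c (c x) = x) (hc1 : c ≠ RingEquiv.refl C)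
    {ζ : C} {m : ℕ} (hm : Odd m) (hζ : ζ ^ m = 1) : c ζ = ζ⁻¹ := by
  have hζ0 : ζ ≠ 0 := by
    intro h
    rw [h, zero_pow (Nat.ne_of_gt hm.pos)] at hζ
    exact zero_ne_one hζ
  set u : C := ζ * c ζ with hu
  have hcu : c u = u := by rw [hu, map_mul, hc2, mul_comm]
  have hum : u ^ m = 1 := by rw [hu, mul_pow, ← map_pow, hζ, map_one, one_mul]
  suffices h1 : u = 1 by
    exact eq_inv_of_mul_eq_one_left (by rw [mul_comm]; exact h1)
  by_contra hne
  obtain ⟨k, hk⟩ := hm
  set w : C := u ^ (k + 1) with hw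
  have hcw : c w = w := by rw [hw, map_pow, hcu]
  have hw2 : w ^ 2 = u := by
    rw [hw, ← pow_mul]
    have : (k + 1) * 2 = m + 1 := by omega
    rw [this, pow_succ, hum, one_mul]
  -- the geometric sum vanishes
  have hgeo : ∑ j ∈ Finset.range m, u ^ j = 0 := by
    have h := Commute.geom_sum₂_mul (Commute.all u 1) m
    simp only [one_pow, mul_one] at h
    rw [hum, sub_self] at h
    rcases mul_eq_zero.mp h with h' | h'
    · exact h'
    · exact absurd (sub_eq_zero.mp h') hne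
  -- rewrite it as a sum of squares, the first of which is `1`
  have hsq : ∑ j ∈ Finset.range m, u ^ j = ∑ j ∈ Finset.range m, (w ^ j) ^ 2 := by
    refine Finset.sum_congr rfl fun j _ => ?_
    rw [← pow_mul, mul_comm, pow_mul, hw2]
  have hm' : m = (2 * k) + 1 := hk
  rw [hsq, hm', Finset.sum_range_succ'] at hgeo
  obtain ⟨t, hct, ht⟩ := s58od_sum_sq c hc2 hc1 (fun j => w ^ (j + 1))
    (fun j => by rw [map_pow, hcw]) (2 * k)
  refine s58od_neg_one_not_sq c hc2 hc1 t hct ?_
  rw [ht]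
  simp only [pow_zero, one_pow] at hgeo
  linear_combination hgeo

end Field

section Galois

local notation "Qb" => AlgebraicClosure ℚ

/-- a nontrivial involution of `Gal(ℚ̄/ℚ)` inverts the roots of unity of odd order -/
theorem s58od_galois (c : Qb ≃ₐ[ℚ] Qb) (hc : c * c = 1) (hc1 : c ≠ 1) {ζ : Qb} {m : ℕ}
    (hm : Odd m) (hζ : ζ ^ m = 1) : c ζ = ζ⁻¹ := by
  have h2 : ∀ x, (c : Qb ≃+* Qb) ((c : Qb ≃+* Qb) x) = x := by
    intro x
    have := congrArg (fun f : Qb ≃ₐ[ℚ] Qb => f x) hc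
    simpa [AlgEquiv.mul_apply] using this
  have h1 : (c : Qb ≃+* Qb) ≠ RingEquiv.refl Qb := by
    intro h
    apply hc1
    ext x
    have := congrArg (fun f : Qb ≃+* Qb => f x) h
    simpa using this
  exact s58od_inv_of_odd (c : Qb ≃+* Qb) h2 h1 hm hζ

/-- the form consumed by `DetIsCyclotomic`: on `μ_{p^n}`, `p` odd, a nontrivial involution is
`μ ↦ μ ^ (p ^ n - 1)`. -/
theorem s58od_galois_pow (c : Qb ≃ₐ[ℚ] Qb) (hc : c * c = 1) (hc1 : c ≠ 1) {p : ℕ} (hp : Odd p)
    (n : ℕ) (μ : Qb) (hμ : μ ^ p ^ n = 1) : c μ = μ ^ (p ^ n - 1) := by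
  rw [s58od_galois c hc hc1 (hp.pow (n := n)) hμ]
  have hpos : 0 < p ^ n := Nat.pos_of_ne_zero (pow_ne_zero n (Nat.ne_of_gt hp.pos))
  have hμ0 : μ ≠ 0 := by
    intro h
    rw [h, zero_pow (Nat.ne_of_gt hpos)] at hμ
    exact zero_ne_one hμ
  exact inv_eq_of_mul_eq_one_right (by rw [← pow_succ', Nat.sub_add_cancel hpos, hμ])

variable {A : Type} [CommRing A] [IsLocalRing A]

/-- cyclotomic determinant: `det ρ(c) + 1 ∈ (pⁿ)` for a nontrivial involution `c` (`p` odd) -/
theorem s58od_det_add_one_mem (ρ : GaloisRepAdic A) {p : ℕ} (hp : Odd p)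
    (hdet : ρ.DetIsCyclotomic p) (c : Qb ≃ₐ[ℚ] Qb) (hc : c * c = 1) (hc1 : c ≠ 1) (n : ℕ) :
    LinearMap.det (ρ.ρ c) + 1 ∈ Ideal.span {((p ^ n : ℕ) : A)} := by
  have h := hdet.2 n c (p ^ n - 1) (fun μ hμ => s58od_galois_pow c hc hc1 hp n μ hμ)
  have hpos : 0 < p ^ n := Nat.pos_of_ne_zero (pow_ne_zero n (Nat.ne_of_gt hp.pos))
  have hcast : ((p ^ n - 1 : ℕ) : A) = ((p ^ n : ℕ) : A) - 1 := by
    rw [Nat.cast_sub hpos, Nat.cast_one]
  rw [hcast] at h
  have : LinearMap.det (ρ.ρ c) + 1 =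
      (LinearMap.det (ρ.ρ c) - (((p ^ n : ℕ) : A) - 1)) + ((p ^ n : ℕ) : A) := by ring
  rw [this]
  exact Ideal.add_mem _ h (Ideal.subset_span rfl)

/-- **oddness**: a representation with cyclotomic determinant (`p` odd) has an odd residual
representation. -/
theorem s58od_residual_isOdd (ρ : GaloisRepAdic A) {p : ℕ} (hp : Odd p)
    (hdet : ρ.DetIsCyclotomic p) : ρ.residual.IsOdd := by
  intro c hc hc1
  have h := s58od_det_add_one_mem ρ hp hdet c hc hc1 1
  have hpm : ((p ^ 1 : ℕ) : A) ∈ IsLocalRing.maximalIdeal A := by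
    rw [pow_one]; exact hdet.1
  have hmem : LinearMap.det (ρ.ρ c) + 1 ∈ IsLocalRing.maximalIdeal A :=
    (Ideal.span_singleton_le_iff_mem _ |>.mpr hpm) h
  have hres : IsLocalRing.residue A (LinearMap.det (ρ.ρ c) + 1) = 0 :=
    (IsLocalRing.residue_eq_zero_iff _).mpr hmem
  have hdetbc : LinearMap.det (ρ.residual.ρ c) =
      algebraMap A (IsLocalRing.ResidueField A) (LinearMap.det (ρ.ρ c)) :=
    LinearMap.det_baseChange (ρ.ρ c)
  rw [hdetbc, IsLocalRing.ResidueField.algebraMap_eq]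
  rw [map_add, map_one] at hres
  linear_combination hres

end Galois

end Fermat.Agent.S58
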