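/-
Project S58, cell [COEF] (helper9): `s58_CoefSeam`.

For a normalised eigenform `g` of level `M` (weight 2), a prime `lam` and ANY finite set `S` of
primes: the eigencharacter `chig : heckeAlgebra M 2 ↑S →+* ℂ` (`T_ℓ ↦ a_ℓ(g)`, `U_q ↦ a_q(g)`), and a
complete discrete valuation ring `O'` of characteristic `0` with finite residue field,
`lam ∈ 𝔪_{O'}`, receiving `chig.range` injectively.

* `s58co_qCoeff_mul_prime_dvd` : `a_{nq} = a_q a_n` for a prime `q ∣ M`;
* `s58co_heckeU_eigen` : `U_q g = a_q g`;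
* `s58co_heckeAlgebra_le_eigenSub` : every Hecke operator (incl. the `U_q`) has `g` as eigenvector;
* `s58co_eigenchar`, `s58co_eigenchar_T`, `s58co_eigenchar_U`, `s58co_eigenchar_isIntegral`;
* `s58co_exists_field`, `s58co_exists_place`;
* `s58co_coef : s58_CoefSeam`.

Prefix `s58co_`.
-/
import Mathlib
import Fermat.Agent.S58.SeamsMod
import Fermat.Agent.JT3.Pack.Res.EigenField
import Fermat.Agent.JT3.Pack.Res.Completion

set_option autoImplicit false
set_option linter.style.haveILetI false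

open CuspForm CongruenceSubgroup ModularFormClass UpperHalfPlane IsLocalRing
open Fermat.Agent.S49 Fermat.Agent.JT3
open scoped NumberField

namespace Fermat.Agent.S58

noncomputable section

variable {N : ℕ}

/-- `a_{q^(r+1)} = a_q a_{q^r}` for a prime `q ∣ N`. -/
theorem s58co_qCoeff_prime_pow_succ {g : CuspForm (Gamma0 N) 2} (hg : g.IsNormalizedEigenform)
    {q : ℕ} (hq : q.Prime) (hqN : q ∣ N) (r : ℕ) :
    qCoeff ⇑g (q ^ (r + 1)) = qCoeff ⇑g q * qCoeff ⇑g (q ^ r) := by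
  rcases r with _ | s
  · rw [pow_zero, zero_add, pow_one, hg.qCoeff_one, mul_one]
  · exact hg.qCoeff_prime_pow_of_dvd q s hq hqN

/-- `a_{nq} = a_q a_n` for a prime `q ∣ N`. -/
theorem s58co_qCoeff_mul_prime_dvd {g : CuspForm (Gamma0 N) 2} (hg : g.IsNormalizedEigenform)
    {q : ℕ} (hq : q.Prime) (hqN : q ∣ N) (n : ℕ) :
    qCoeff ⇑g (n * q) = qCoeff ⇑g q * qCoeff ⇑g n := by
  rcases Nat.eq_zero_or_pos n with rfl | hn
  · rw [zero_mul, qc_coeff_zero, mul_zero]
  obtain ⟨r, m, hm, rfl⟩ := Nat.exists_eq_pow_mul_and_not_dvd hn.ne' q hq.ne_one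
  have hcop : ∀ s : ℕ, (q ^ s).Coprime m := fun s =>
    Nat.Coprime.pow_left s ((Nat.Prime.coprime_iff_not_dvd hq).2 hm)
  have e1 : q ^ r * m * q = q ^ (r + 1) * m := by ring
  rw [e1, hg.qCoeff_mul_of_coprime _ _ (hcop (r + 1)), hg.qCoeff_mul_of_coprime _ _ (hcop r),
    s58co_qCoeff_prime_pow_succ hg hq hqN r, mul_assoc]

/-- **`U_q g = a_q g`** for a prime `q ∣ N`. -/
theorem s58co_heckeU_eigen [NeZero N] {g : CuspForm (Gamma0 N) 2} (hg : g.IsNormalizedEigenform)
    {q : ℕ} (hq : q.Prime) (hqN : q ∣ N) :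
    heckeULin 2 hqN g = qCoeff ⇑g q • g := by
  apply qc_ext
  intro n
  rw [qc_heckeU hq hqN g n, qc_smul, s58co_qCoeff_mul_prime_dvd hg hq hqN n]

/-- every element of the Hecke algebra (any `S`) has `g` as an eigenvector. -/
theorem s58co_heckeAlgebra_le_eigenSub [NeZero N] {g : CuspForm (Gamma0 N) 2}
    (hg : g.IsNormalizedEigenform) (S : Set ℕ) :
    heckeAlgebra N 2 S ≤ prs_eigenSub g := by
  apply Algebra.adjoin_le
  rintro T (⟨ℓ, hℓ, hℓN, -, rfl⟩ | ⟨q, hqN, hq, hqS, rfl⟩)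
  · exact ⟨_, prs_heckeT_eigen hg hℓ hℓN⟩
  · exact ⟨_, s58co_heckeU_eigen hg hq hqN⟩

theorem s58co_apply_eq_smul [NeZero N] {g : CuspForm (Gamma0 N) 2}
    (hg : g.IsNormalizedEigenform) (S : Set ℕ) (t : heckeAlgebra N 2 S) :
    (t : Module.End ℂ (CuspForm (Gamma0 N) 2)) g =
      qCoeff ⇑((t : Module.End ℂ (CuspForm (Gamma0 N) 2)) g) 1 • g := by
  obtain ⟨c, hc⟩ := s58co_heckeAlgebra_le_eigenSub hg S t.2
  rw [hc, qc_smul, hg.qCoeff_one, mul_one]

/-- **the eigencharacter** `t ↦ a_1(t g)` on the Hecke algebra away from an ARBITRARY set `S`. -/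
def s58co_eigenchar [NeZero N] {g : CuspForm (Gamma0 N) 2}
    (hg : g.IsNormalizedEigenform) (S : Set ℕ) : heckeAlgebra N 2 S →+* ℂ where
  toFun t := qCoeff ⇑((t : Module.End ℂ (CuspForm (Gamma0 N) 2)) g) 1
  map_one' := by
    show qCoeff ⇑((1 : Module.End ℂ (CuspForm (Gamma0 N) 2)) g) 1 = 1
    rw [Module.End.one_apply, hg.qCoeff_one]
  map_mul' := by
    intro a b
    show qCoeff ⇑(((a : Module.End ℂ (CuspForm (Gamma0 N) 2)) *
      (b : Module.End ℂ (CuspForm (Gamma0 N) 2))) g) 1 = _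
    rw [Module.End.mul_apply, s58co_apply_eq_smul hg S b, map_smul, qc_smul, qc_smul,
      hg.qCoeff_one, mul_one, mul_comm]
  map_zero' := by
    show qCoeff ⇑((0 : Module.End ℂ (CuspForm (Gamma0 N) 2)) g) 1 = 0
    rw [LinearMap.zero_apply, qc_zero]
  map_add' := by
    intro a b
    show qCoeff ⇑(((a : Module.End ℂ (CuspForm (Gamma0 N) 2)) +
      (b : Module.End ℂ (CuspForm (Gamma0 N) 2))) g) 1 = _
    rw [LinearMap.add_apply, qc_add]

theorem s58co_eigenchar_apply [NeZero N] {g : CuspForm (Gamma0 N) 2}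
    (hg : g.IsNormalizedEigenform) (S : Set ℕ) (t : heckeAlgebra N 2 S) :
    s58co_eigenchar hg S t = qCoeff ⇑((t : Module.End ℂ (CuspForm (Gamma0 N) 2)) g) 1 := rfl

theorem s58co_eigenchar_T [NeZero N] {g : CuspForm (Gamma0 N) 2}
    (hg : g.IsNormalizedEigenform) (S : Set ℕ)
    {ℓ : ℕ} (hℓ : ℓ.Prime) (hℓN : ¬ ℓ ∣ N) (hℓS : ℓ ∉ S) :
    s58co_eigenchar hg S (heckeAlgebra.T hℓ hℓN hℓS) = qCoeff ⇑g ℓ := by
  rw [s58co_eigenchar_apply, heckeAlgebra.coe_T, prs_heckeT_eigen hg hℓ hℓN, qc_smul,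
    hg.qCoeff_one, mul_one]

theorem s58co_eigenchar_U [NeZero N] {g : CuspForm (Gamma0 N) 2}
    (hg : g.IsNormalizedEigenform) (S : Set ℕ)
    {q : ℕ} (hq : q.Prime) (hqN : q ∣ N) (hqS : q ∉ S) :
    s58co_eigenchar hg S (heckeAlgebra.U hq hqN hqS) = qCoeff ⇑g q := by
  rw [s58co_eigenchar_apply, heckeAlgebra.coe_U, s58co_heckeU_eigen hg hq hqN, qc_smul,
    hg.qCoeff_one, mul_one]

/-- values of the eigencharacter are algebraic integers (S22). -/
theorem s58co_eigenchar_isIntegral [NeZero N] {g : CuspForm (Gamma0 N) 2}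
    (hg : g.IsNormalizedEigenform) (S : Set ℕ) (t : heckeAlgebra N 2 S) :
    IsIntegral ℤ (s58co_eigenchar hg S t) := by
  have hfin : Module.Finite ℤ (heckeAlgebra N 2 S) := Fermat.Agent.S22.result N 2 S
  have hint : IsIntegral ℤ t := Algebra.IsIntegral.isIntegral t
  exact map_isIntegral_int (s58co_eigenchar hg S) hint

/-- a number field (inside `ℂ`) containing the values of the eigencharacter. -/
theorem s58co_exists_field [NeZero N] {g : CuspForm (Gamma0 N) 2}
    (hg : g.IsNormalizedEigenform) (S : Set ℕ) :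
    ∃ K : IntermediateField ℚ ℂ, FiniteDimensional ℚ K ∧
      ∀ t : heckeAlgebra N 2 S, s58co_eigenchar hg S t ∈ K := by
  have hfin : Module.Finite ℤ (heckeAlgebra N 2 S) := Fermat.Agent.S22.result N 2 S
  obtain ⟨G, hG⟩ := hfin.fg_top
  refine ⟨IntermediateField.adjoin ℚ
    ((fun t => s58co_eigenchar hg S t) '' (G : Set (heckeAlgebra N 2 S))), ?_, ?_⟩
  · apply IntermediateField.finiteDimensional_adjoin
    rintro x ⟨t, -, rfl⟩
    exact (s58co_eigenchar_isIntegral hg S t).tower_top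
  · intro t
    have ht : t ∈ Submodule.span ℤ (G : Set (heckeAlgebra N 2 S)) := by
      rw [hG]; exact Submodule.mem_top
    induction ht using Submodule.span_induction with
    | mem x hx => exact IntermediateField.subset_adjoin _ _ ⟨x, hx, rfl⟩
    | zero => rw [map_zero]; exact zero_mem _
    | add x y _ _ hx hy => rw [map_add]; exact add_mem hx hy
    | smul z x _ hx =>
      rw [zsmul_eq_mul, map_mul, map_intCast]
      exact mul_mem (intCast_mem _ z) hx

/-- a prime of `𝓞 K` over `lam`. -/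
theorem s58co_exists_place (K : Type*) [Field K] [NumberField K] (lam : ℕ) (hlam : lam.Prime) :
    ∃ v : IsDedekindDomain.HeightOneSpectrum (𝓞 K), ((lam : ℕ) : 𝓞 K) ∈ v.asIdeal := by
  have hprime : Prime (lam : ℤ) := Nat.prime_iff_prime_int.mp hlam
  haveI hmax : (Ideal.span {(lam : ℤ)}).IsMaximal :=
    PrincipalIdealRing.isMaximal_of_irreducible hprime.irreducible
  obtain ⟨Q, hQ, hQc⟩ := Ideal.exists_ideal_over_maximal_of_isIntegral (S := 𝓞 K)
    (Ideal.span {(lam : ℤ)}) (by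
      rw [(RingHom.injective_iff_ker_eq_bot _).mp
        (FaithfulSMul.algebraMap_injective ℤ (𝓞 K))]
      exact bot_le)
  have hmem : ((lam : ℕ) : 𝓞 K) ∈ Q := by
    have h1 : (lam : ℤ) ∈ Q.comap (algebraMap ℤ (𝓞 K)) := by
      rw [hQc]; exact Ideal.mem_span_singleton_self _
    rw [Ideal.mem_comap] at h1
    simpa using h1
  refine ⟨⟨Q, hQ.isPrime, ?_⟩, hmem⟩
  rintro rfl
  rw [Ideal.mem_bot] at hmem
  exact hlam.ne_zero (by exact_mod_cast hmem)

/-- **[COEF]** -/
theorem s58co_coef : s58_CoefSeam := by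
  intro M _ g hg lam hlamF S
  classical
  obtain ⟨K, hK, hmem⟩ := s58co_exists_field hg (↑S : Set ℕ)
  haveI : NumberField K := @NumberField.mk K _ inferInstance hK
  have hfin : Module.Finite ℤ (heckeAlgebra M 2 (↑S : Set ℕ)) := Fermat.Agent.S22.result M 2 _
  haveI : Algebra.IsIntegral ℤ (heckeAlgebra M 2 (↑S : Set ℕ)) := Algebra.IsIntegral.of_finite _ _
  let χK : heckeAlgebra M 2 (↑S : Set ℕ) →+* K := (s58co_eigenchar hg (↑S : Set ℕ)).codRestrict K hmem
  letI : Algebra (heckeAlgebra M 2 (↑S : Set ℕ)) K := χK.toAlgebra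
  let χO : heckeAlgebra M 2 (↑S : Set ℕ) →ₐ[ℤ] 𝓞 K := IsIntegralClosure.lift ℤ (𝓞 K) K
  have hχO : ∀ t, algebraMap K ℂ (algebraMap (𝓞 K) K (χO t)) = s58co_eigenchar hg (↑S : Set ℕ) t := by
    intro t
    have h1 : algebraMap (𝓞 K) K (χO t) = χK t := IsIntegralClosure.algebraMap_lift ℤ (𝓞 K) K _
    rw [h1]
    rfl
  -- the place over `lam`
  obtain ⟨v, hv⟩ := s58co_exists_place K lam hlamF.out
  haveI : Finite (𝓞 K ⧸ v.asIdeal) := Ideal.finiteQuotientOfFreeOfNeBot v.asIdeal v.ne_bot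
  -- the embedding `𝓞 K → ℂ` and its range
  let e' : 𝓞 K →+* ℂ := (algebraMap K ℂ).comp (algebraMap (𝓞 K) K)
  have he' : Function.Injective e' :=
    (algebraMap K ℂ).injective.comp (FaithfulSMul.algebraMap_injective (𝓞 K) K)
  let eqv : 𝓞 K ≃+* e'.range := RingEquiv.ofBijective e'.rangeRestrict
    ⟨fun x y h => he' (by
        have h1 : ((e'.rangeRestrict x : e'.range) : ℂ) = ((e'.rangeRestrict y : e'.range) : ℂ) :=
          congrArg (Subtype.val : e'.range → ℂ) h
        exact h1), e'.rangeRestrict_surjective⟩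
  have hle : (s58co_eigenchar hg (↑S : Set ℕ)).range ≤ e'.range := by
    rintro x ⟨t, rfl⟩
    exact ⟨χO t, hχO t⟩
  let a : 𝓞 K →+* v.adicCompletionIntegers K := algebraMap (𝓞 K) (v.adicCompletionIntegers K)
  have ha : Function.Injective a :=
    FaithfulSMul.algebraMap_injective (𝓞 K) (v.adicCompletionIntegers K)
  refine ⟨v.adicCompletionIntegers K, inferInstance, inferInstance, inferInstance,
    prs_isAdicComplete K v, prs_finite_residueField K v, prs_charZero K v, ?_,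
    s58co_eigenchar hg (↑S : Set ℕ), ?_,
    (a.comp (eqv.symm : e'.range →+* 𝓞 K)).comp (Subring.inclusion hle), ?_⟩
  · have : algebraMap (𝓞 K) (v.adicCompletionIntegers K) ((lam : ℕ) : 𝓞 K) =
        ((lam : ℕ) : v.adicCompletionIntegers K) :=
      map_natCast (algebraMap (𝓞 K) (v.adicCompletionIntegers K)) lam
    rw [← this]
    exact (prs_algebraMap_mem_maximalIdeal_iff K v _).mpr hv
  · intro ℓ hℓ hℓM hℓS
    exact s58co_eigenchar_T hg (↑S : Set ℕ) hℓ hℓM hℓS
  · intro x y h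
    have h1 := ha h
    have h2 := eqv.symm.injective h1
    exact Subring.inclusion_injective hle h2

end

end Fermat.Agent.S58
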