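/-
S58, cell (D) [OLD-LIFT] (helper18): `q`-stabilisation of a normalised weight-two eigenform.
For a prime `q ∤ M` and a normalised eigenform `g` of level `Γ₀(M)` the form
`g' = g - β · g(q ·)` (`α + β = a_q(g)`, `α β = q`) is a normalised eigenform of level `Γ₀(q M)`
(in the prelude's sense: coefficient identities) with the same coefficients prime to `q`.
Prefix `s58o_`.
-/
import Mathlib
import Fermat.Prelude.Def_FLTPrelim_Modularity
import Fermat.Prelude.Thm_CuspFormClass_isZeroAt_heckeT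
import Fermat.Prelude.Thm_CuspFormClass_isZeroAt_heckeU
import Fermat.Prelude.Thm_CongruenceSubgroup_one_mem_strictPeriods_Gamma0
import Fermat.Agent.DS.Wt.LevelRaise

set_option autoImplicit false

noncomputable section

open Complex Function Filter ModularForm ModularFormClass CongruenceSubgroup
open Matrix.SpecialLinearGroup
open UpperHalfPlane hiding I
open scoped Real MatrixGroups ModularForm Manifold Topology
open Fermat.Agent.DS

namespace Fermat.Agent.S58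

/-! ### inclusion of levels -/

theorem s58o_map_Gamma0_le {N M : ℕ} (h : N ∣ M) :
    (Gamma0 M : Subgroup (GL (Fin 2) ℝ)) ≤ (Gamma0 N : Subgroup (GL (Fin 2) ℝ)) :=
  Subgroup.map_mono (dsw_vn_Gamma0_le h)

/-- a cusp form on `Γ₀(N)` as a cusp form on `Γ₀(M)`, `N ∣ M` -/
def s58o_incl {N M : ℕ} (h : N ∣ M) (f : CuspForm (Gamma0 N) 2) : CuspForm (Gamma0 M) 2 where
  toFun := ⇑f
  slash_action_eq' γ hγ := f.slash_action_eq' γ (s58o_map_Gamma0_le h hγ)
  holo' := f.holo'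
  zero_at_cusps' hc := f.zero_at_cusps' (hc.mono (s58o_map_Gamma0_le h))

@[simp] theorem s58o_incl_coe {N M : ℕ} (h : N ∣ M) (f : CuspForm (Gamma0 N) 2) :
    ⇑(s58o_incl h f) = ⇑f := rfl

/-! ### the operator `V_q` -/

/-- `V_q g = g ∣[2] diag(q, 1)` (`τ ↦ q · g(q τ)`), a cusp form on `Γ₀(q M)` -/
def s58o_V (q : ℕ) [NeZero q] {M : ℕ} [NeZero M] (g : CuspForm (Gamma0 M) 2) :
    CuspForm (Gamma0 (q * M)) 2 where
  toFun := ⇑g ∣[(2 : ℤ)] heckeDiagMatrix q
  slash_action_eq' := by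
    rintro _ ⟨δ, hδ, rfl⟩
    obtain ⟨g', hg0, -, hmul⟩ := dsw_vn_commute q δ hδ
    show (⇑g ∣[(2 : ℤ)] heckeDiagMatrix q) ∣[(2 : ℤ)] mapGL ℝ δ = ⇑g ∣[(2 : ℤ)] heckeDiagMatrix q
    rw [← SlashAction.slash_mul, hmul, SlashAction.slash_mul,
      SlashInvariantFormClass.slash_action_eq g _ (Subgroup.mem_map_of_mem _ hg0)]
  holo' := ds0_diag_mdiff 2 (CuspFormClass.holo g) q
  zero_at_cusps' := fun {c} hc ↦ by
    have hc' : IsCusp c (Gamma0 M : Subgroup (GL (Fin 2) ℝ)) :=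
      hc.mono (s58o_map_Gamma0_le (dvd_mul_left M q))
    show OnePoint.IsZeroAt c (⇑g ∣[(2 : ℤ)] heckeDiagMatrix q) 2
    rw [ds0_diag_eq_sub, sub_eq_add_neg, ← heckeU_neg]
    exact (CuspFormClass.isZeroAt_heckeT g q hc').add (CuspFormClass.isZeroAt_heckeU (-g) q hc')

theorem s58o_V_coe (q : ℕ) [NeZero q] {M : ℕ} [NeZero M] (g : CuspForm (Gamma0 M) 2) :
    ⇑(s58o_V q g) = ⇑g ∣[(2 : ℤ)] heckeDiagMatrix q := rfl


/-! ### `q`-coefficients -/

section coeff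

variable {M : ℕ} [NeZero M]

omit [NeZero M] in
theorem s58o_per (g : CuspForm (Gamma0 M) 2) : Periodic (⇑g ∘ ofComplex) 1 :=
  SlashInvariantFormClass.periodic_comp_ofComplex g
    (CongruenceSubgroup.one_mem_strictPeriods_Gamma0 M)

theorem s58o_bdd (g : CuspForm (Gamma0 M) 2) : IsBoundedAtImInfty ⇑g :=
  (CuspFormClass.zero_at_infty g).isBoundedAtImInfty

theorem s58o_analytic (g : CuspForm (Gamma0 M) 2) : AnalyticAt ℂ (cuspFunction 1 ⇑g) 0 :=
  analyticAt_cuspFunction_zero one_pos (s58o_per g) (CuspFormClass.holo g) (s58o_bdd g)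

omit [NeZero M] in
theorem s58o_qCoeff_zero (g : CuspForm (Gamma0 M) 2) : qCoeff g 0 = 0 :=
  CuspFormClass.qExpansion_coeff_zero g one_pos (CongruenceSubgroup.one_mem_strictPeriods_Gamma0 M)

theorem s58o_qCoeff_V (q : ℕ) [NeZero q] (g : CuspForm (Gamma0 M) 2) (n : ℕ) :
    qCoeff (s58o_V q g) n = if q ∣ n then (q : ℂ) * qCoeff g (n / q) else 0 := by
  have h := ds0_qCoeff_diag 2 (NeZero.ne q) (s58o_per g) (CuspFormClass.holo g) (s58o_bdd g) n
  rw [s58o_V_coe, h]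
  norm_num

theorem s58o_qCoeff_sub (f g : CuspForm (Gamma0 M) 2) (n : ℕ) :
    qCoeff (f - g : CuspForm (Gamma0 M) 2) n = qCoeff f n - qCoeff g n := by
  have h : (⇑(f - g : CuspForm (Gamma0 M) 2) : ℍ → ℂ) = ⇑f - ⇑g := rfl
  rw [qCoeff, h, qExpansion_sub (s58o_analytic f) (s58o_analytic g)]
  rfl

theorem s58o_qCoeff_smul (c : ℂ) (g : CuspForm (Gamma0 M) 2) (n : ℕ) :
    qCoeff (c • g : CuspForm (Gamma0 M) 2) n = c * qCoeff g n := by
  have h : (⇑(c • g : CuspForm (Gamma0 M) 2) : ℍ → ℂ) = c • ⇑g := rfl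
  rw [qCoeff, h, qExpansion_smul (s58o_analytic g)]
  simp [qCoeff]

end coeff


/-! ### inclusion of levels preserves normalised eigenforms when the primes do not change -/

theorem s58o_qCoeff_incl {N M : ℕ} (h : N ∣ M) (f : CuspForm (Gamma0 N) 2) (n : ℕ) :
    qCoeff (s58o_incl h f) n = qCoeff f n := rfl

theorem s58o_incl_isNormalizedEigenform {N M : ℕ} (h : N ∣ M)
    (hpr : ∀ p : ℕ, p.Prime → p ∣ M → p ∣ N) {f : CuspForm (Gamma0 N) 2}
    (hf : f.IsNormalizedEigenform) : (s58o_incl h f).IsNormalizedEigenform where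
  qCoeff_one := hf.qCoeff_one
  qCoeff_mul_of_coprime := hf.qCoeff_mul_of_coprime
  qCoeff_prime_pow_of_not_dvd p r hp hpM :=
    hf.qCoeff_prime_pow_of_not_dvd p r hp (fun hpN ↦ hpM (hpN.trans h))
  qCoeff_prime_pow_of_dvd p r hp hpM := hf.qCoeff_prime_pow_of_dvd p r hp (hpr p hp hpM)

/-! ### the `q`-stabilisation -/

/-- `g - (β / q) • V_q g`, with `n`-th coefficient `a_n - β a_{n/q}` -/
def s58o_stab (q : ℕ) [NeZero q] {M : ℕ} [NeZero M] (β : ℂ) (g : CuspForm (Gamma0 M) 2) :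
    CuspForm (Gamma0 (q * M)) 2 :=
  s58o_incl (dvd_mul_left M q) g - (β / q) • s58o_V q g

theorem s58o_qCoeff_stab (q : ℕ) [NeZero q] {M : ℕ} [NeZero M] (β : ℂ)
    (g : CuspForm (Gamma0 M) 2) (n : ℕ) :
    qCoeff (s58o_stab q β g) n =
      qCoeff g n - β * (if q ∣ n then qCoeff g (n / q) else 0) := by
  have hq : (q : ℂ) ≠ 0 := Nat.cast_ne_zero.mpr (NeZero.ne q)
  rw [s58o_stab, s58o_qCoeff_sub, s58o_qCoeff_smul, s58o_qCoeff_V, s58o_qCoeff_incl]
  split_ifs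
  · field_simp
  · simp

theorem s58o_qCoeff_stab_of_not_dvd (q : ℕ) [NeZero q] {M : ℕ} [NeZero M] (β : ℂ)
    (g : CuspForm (Gamma0 M) 2) {n : ℕ} (hn : ¬ q ∣ n) :
    qCoeff (s58o_stab q β g) n = qCoeff g n := by
  rw [s58o_qCoeff_stab, if_neg hn, mul_zero, sub_zero]

theorem s58o_stab_isNormalizedEigenform {q : ℕ} [NeZero q] {M : ℕ} [NeZero M] (hq : q.Prime)
    (hqM : ¬ q ∣ M) {g : CuspForm (Gamma0 M) 2} (hg : g.IsNormalizedEigenform) {β : ℂ}
    (hβ : β ^ 2 - qCoeff g q * β + q = 0) : (s58o_stab q β g).IsNormalizedEigenform := by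
  -- the auxiliary sequence `a'(n) = [q ∣ n] a(n / q)`
  have key : ∀ m n : ℕ, m.Coprime n → ¬ q ∣ n →
      qCoeff (s58o_stab q β g) (m * n) = qCoeff (s58o_stab q β g) m * qCoeff g n := by
    intro m n hmn hn
    rw [s58o_qCoeff_stab, s58o_qCoeff_stab, hg.qCoeff_mul_of_coprime m n hmn]
    by_cases hm : q ∣ m
    · obtain ⟨m', rfl⟩ := hm
      have hcop : m'.Coprime n := Nat.Coprime.coprime_dvd_left (dvd_mul_left m' q) hmn
      rw [if_pos (Dvd.dvd.mul_right (dvd_mul_right q m') n), if_pos (dvd_mul_right q m'),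
        mul_assoc, Nat.mul_div_cancel_left _ hq.pos, Nat.mul_div_cancel_left _ hq.pos,
        hg.qCoeff_mul_of_coprime m' n hcop]
      ring
    · have hmn' : ¬ q ∣ m * n := fun h ↦ (hq.dvd_mul.mp h).elim hm hn
      rw [if_neg hmn', if_neg hm]
      ring
  refine ⟨?_, ?_, ?_, ?_⟩
  · rw [s58o_qCoeff_stab_of_not_dvd q β g (fun h ↦ hq.one_lt.ne' (Nat.dvd_one.mp h))]
    exact hg.qCoeff_one
  · intro m n hmn
    by_cases hn : q ∣ n
    · have hm : ¬ q ∣ m := fun hm ↦ hq.one_lt.ne' (Nat.dvd_one.mp (hmn ▸ Nat.dvd_gcd hm hn))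
      rw [mul_comm m n, key n m hmn.symm hm, s58o_qCoeff_stab_of_not_dvd q β g hm, mul_comm]
    · rw [key m n hmn hn, s58o_qCoeff_stab_of_not_dvd q β g hn]
  · intro p r hp hpqM
    have hpq : p ≠ q := fun h ↦ hpqM (h ▸ dvd_mul_right p M)
    have hpM : ¬ p ∣ M := fun h ↦ hpqM (h.mul_left q)
    have hnd : ∀ i : ℕ, ¬ q ∣ p ^ i := fun i h ↦
      hpq ((Nat.prime_dvd_prime_iff_eq hq hp).mp (hq.dvd_of_dvd_pow h)).symm
    have hnd1 : ¬ q ∣ p := by simpa using hnd 1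
    rw [s58o_qCoeff_stab_of_not_dvd q β g (hnd _), s58o_qCoeff_stab_of_not_dvd q β g (hnd _),
      s58o_qCoeff_stab_of_not_dvd q β g (hnd _), s58o_qCoeff_stab_of_not_dvd q β g hnd1]
    exact hg.qCoeff_prime_pow_of_not_dvd p r hp hpM
  · intro p r hp hpqM
    by_cases hpq : p = q
    · subst hpq
      have h1 : qCoeff g (p ^ (r + 2)) =
          qCoeff g p * qCoeff g (p ^ (r + 1)) - p * qCoeff g (p ^ r) :=
        hg.qCoeff_prime_pow_of_not_dvd p r hp hqM
      have e2 : p ^ (r + 2) / p = p ^ (r + 1) := by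
        rw [pow_succ, Nat.mul_div_cancel _ hp.pos]
      have e1 : p ^ (r + 1) / p = p ^ r := by
        rw [pow_succ, Nat.mul_div_cancel _ hp.pos]
      rw [s58o_qCoeff_stab, s58o_qCoeff_stab, s58o_qCoeff_stab,
        if_pos (dvd_pow_self p (by omega)), if_pos (dvd_pow_self p (by omega)),
        if_pos (dvd_refl p), e2, e1, Nat.div_self hp.pos, hg.qCoeff_one, h1]
      linear_combination (-(qCoeff g (p ^ r))) * hβ
    · have hpM : p ∣ M := by
        rcases (hp.dvd_mul).mp hpqM with h | h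
        · exact absurd ((Nat.prime_dvd_prime_iff_eq hp hq).mp h) hpq
        · exact h
      have hnd : ∀ i : ℕ, ¬ q ∣ p ^ i := fun i h ↦
        hpq ((Nat.prime_dvd_prime_iff_eq hq hp).mp (hq.dvd_of_dvd_pow h)).symm
      have hnd1 : ¬ q ∣ p := by simpa using hnd 1
      rw [s58o_qCoeff_stab_of_not_dvd q β g (hnd _), s58o_qCoeff_stab_of_not_dvd q β g (hnd _),
        s58o_qCoeff_stab_of_not_dvd q β g hnd1]
      exact hg.qCoeff_prime_pow_of_dvd p r hp hpM

/-- **`q`-stabilisation**: a normalised eigenform of level `M`, `q ∤ M` prime, gives a normalised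
eigenform of level `q M` with the same coefficients prime to `q`. -/
theorem s58o_stabilise {q : ℕ} {M : ℕ} [NeZero M] (hq : q.Prime) (hqM : ¬ q ∣ M)
    {g : CuspForm (Gamma0 M) 2} (hg : g.IsNormalizedEigenform) :
    ∃ g' : CuspForm (Gamma0 (q * M)) 2, g'.IsNormalizedEigenform ∧
      ∀ n : ℕ, ¬ q ∣ n → qCoeff g' n = qCoeff g n := by
  haveI : NeZero q := ⟨hq.ne_zero⟩
  -- a root of `X² - a_q X + q`
  obtain ⟨s, hs⟩ := IsAlgClosed.exists_eq_mul_self (qCoeff g q ^ 2 - 4 * (q : ℂ))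
  refine ⟨s58o_stab q ((qCoeff g q + s) / 2) g,
    s58o_stab_isNormalizedEigenform hq hqM hg ?_, fun n hn ↦
      s58o_qCoeff_stab_of_not_dvd q _ g hn⟩
  linear_combination (-1 / 4 : ℂ) * hs


/-! ### iterating: from level `M` to any multiple `L` of `M` -/

theorem s58o_lift_finset (S : Finset ℕ) :
    ∀ (M : ℕ) [NeZero M] (g : CuspForm (Gamma0 M) 2), g.IsNormalizedEigenform →
      (∀ q ∈ S, q.Prime ∧ ¬ q ∣ M) →
      ∃ g' : CuspForm (Gamma0 ((∏ q ∈ S, q) * M)) 2, g'.IsNormalizedEigenform ∧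
        ∀ n : ℕ, (∀ q ∈ S, ¬ q ∣ n) → qCoeff g' n = qCoeff g n := by
  classical
  induction S using Finset.induction_on with
  | empty =>
    intro M _ g hg _
    refine ⟨s58o_incl (by simp) g, s58o_incl_isNormalizedEigenform _ (by simp) hg, fun n _ ↦ rfl⟩
  | insert q S hqS ih =>
    intro M _ g hg hS
    have hq : q.Prime := (hS q (Finset.mem_insert_self q S)).1
    have hqM : ¬ q ∣ M := (hS q (Finset.mem_insert_self q S)).2
    obtain ⟨g₁, hg₁, hc₁⟩ := ih M g hg (fun r hr ↦ hS r (Finset.mem_insert_of_mem hr))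
    have hprod : (∏ r ∈ S, r) ≠ 0 :=
      Finset.prod_ne_zero_iff.mpr (fun r hr ↦ (hS r (Finset.mem_insert_of_mem hr)).1.ne_zero)
    haveI : NeZero ((∏ r ∈ S, r) * M) := ⟨mul_ne_zero hprod (NeZero.ne M)⟩
    have hq' : ¬ q ∣ (∏ r ∈ S, r) * M := by
      intro h
      rcases hq.dvd_mul.mp h with h | h
      · obtain ⟨r, hr, hqr⟩ := (Prime.dvd_finset_prod_iff hq.prime _).mp h
        have : q = r := (Nat.prime_dvd_prime_iff_eq hq
          (hS r (Finset.mem_insert_of_mem hr)).1).mp hqr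
        exact hqS (this ▸ hr)
      · exact hqM h
    obtain ⟨g₂, hg₂, hc₂⟩ := s58o_stabilise hq hq' hg₁
    have heq : q * ((∏ r ∈ S, r) * M) = (∏ r ∈ insert q S, r) * M := by
      rw [Finset.prod_insert hqS, mul_assoc]
    refine ⟨s58o_incl (dvd_of_eq heq) g₂,
      s58o_incl_isNormalizedEigenform _ (fun p _ hp ↦ heq ▸ hp) hg₂, fun n hn ↦ ?_⟩
    rw [s58o_qCoeff_incl, hc₂ n (hn q (Finset.mem_insert_self q S)),
      hc₁ n (fun r hr ↦ hn r (Finset.mem_insert_of_mem hr))]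

/-- **[OLD-LIFT]**: a normalised eigenform of level `M` lifts to a normalised eigenform of any
level `L ≠ 0` divisible by `M`, with the same `n`-th coefficient for all `n` prime to `L`
(indeed for all `n` not divisible by a prime `q ∣ L`, `q ∤ M`). -/
theorem s58o_lift {M L : ℕ} [NeZero M] (hML : M ∣ L) (hL : L ≠ 0)
    {g : CuspForm (Gamma0 M) 2} (hg : g.IsNormalizedEigenform) :
    ∃ g' : CuspForm (Gamma0 L) 2, g'.IsNormalizedEigenform ∧
      ∀ n : ℕ, (∀ q : ℕ, q.Prime → q ∣ L → ¬ q ∣ M → ¬ q ∣ n) → qCoeff g' n = qCoeff g n := by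
  classical
  set S : Finset ℕ := L.primeFactors.filter (fun q ↦ ¬ q ∣ M) with hSdef
  have hS : ∀ q ∈ S, q.Prime ∧ ¬ q ∣ M := fun q hq ↦ by
    rw [hSdef, Finset.mem_filter] at hq
    exact ⟨Nat.prime_of_mem_primeFactors hq.1, hq.2⟩
  obtain ⟨g₁, hg₁, hc₁⟩ := s58o_lift_finset S M g hg hS
  -- `(∏ S) * M ∣ L`
  have h1 : (∏ q ∈ S, q) ∣ L :=
    (Finset.prod_dvd_prod_of_subset _ _ _ (Finset.filter_subset _ _)).trans
      (Nat.prod_primeFactors_dvd L)
  have hcop : (∏ q ∈ S, q).Coprime M := by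
    apply Nat.Coprime.prod_left
    intro q hq
    exact ((hS q hq).1.coprime_iff_not_dvd).mpr (hS q hq).2
  have hdvd : (∏ q ∈ S, q) * M ∣ L := hcop.mul_dvd_of_dvd_of_dvd h1 hML
  have hpr : ∀ p : ℕ, p.Prime → p ∣ L → p ∣ (∏ q ∈ S, q) * M := by
    intro p hp hpL
    by_cases hpM : p ∣ M
    · exact hpM.mul_left _
    · refine Dvd.dvd.mul_right (Finset.dvd_prod_of_mem _ ?_) M
      rw [hSdef, Finset.mem_filter]
      exact ⟨Nat.mem_primeFactors.mpr ⟨hp, hpL, hL⟩, hpM⟩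
  refine ⟨s58o_incl hdvd g₁, s58o_incl_isNormalizedEigenform hdvd hpr hg₁, fun n hn ↦ ?_⟩
  rw [s58o_qCoeff_incl]
  refine hc₁ n (fun q hq ↦ ?_)
  have hq' := hq
  rw [hSdef, Finset.mem_filter] at hq'
  exact hn q (hS q hq).1 (Nat.dvd_of_mem_primeFactors hq'.1) (hS q hq).2

theorem s58o_lift_coprime {M L : ℕ} [NeZero M] (hML : M ∣ L) (hL : L ≠ 0)
    {g : CuspForm (Gamma0 M) 2} (hg : g.IsNormalizedEigenform) :
    ∃ g' : CuspForm (Gamma0 L) 2, g'.IsNormalizedEigenform ∧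
      ∀ n : ℕ, n.Coprime L → qCoeff g' n = qCoeff g n := by
  obtain ⟨g', hg', hc⟩ := s58o_lift hML hL hg
  refine ⟨g', hg', fun n hn ↦ hc n (fun q hq hqL _ hqn ↦ ?_)⟩
  exact hq.one_lt.ne' (Nat.dvd_one.mp (hn ▸ Nat.dvd_gcd hqn hqL))


/-- `IsModularModelOfLevel` goes up along divisibility of levels. -/
theorem s58o_isModularModelOfLevel_of_dvd (W : WeierstrassCurve ℤ) {M L : ℕ} (hM : M ≠ 0)
    (hML : M ∣ L) (hL : L ≠ 0) (h : W.IsModularModelOfLevel M) : W.IsModularModelOfLevel L := by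
  haveI : NeZero M := ⟨hM⟩
  obtain ⟨f, hf, hfp⟩ := h
  obtain ⟨g', hg', hc⟩ := s58o_lift_coprime hML hL hf
  refine ⟨g', hg', fun p hp hgood hpL ↦ ?_⟩
  rw [hc p ((Nat.Prime.coprime_iff_not_dvd hp).mpr hpL)]
  exact hfp p hp hgood (fun hpM ↦ hpL (hpM.trans hML))

end Fermat.Agent.S58
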