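/-
S58: the seam (D) [OLD-LIFT] as a closed term (helper18), from `s58o_lift` (`S58/OldLift.lean`).
-/
import Mathlib
import Fermat.Agent.S58.Seams
import Fermat.Agent.S58.OldLift

set_option autoImplicit false

namespace Fermat.Agent.S58

/-- **(D)** [OLD-LIFT]: the seam `s58_OldLiftSeam`. -/
theorem s58o_oldLiftSeam : s58_OldLiftSeam := by
  intro M R _ hR _ g hg
  have hL : M * R ≠ 0 := mul_ne_zero (NeZero.ne M) hR.ne_zero
  obtain ⟨g', hg', hc⟩ := s58o_lift (Dvd.intro R rfl) hL hg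
  refine ⟨g', hg', fun n hn => hc n (fun q hq hqL hqM hqn => ?_)⟩
  have hqR : q ∣ R := (hq.dvd_mul.mp hqL).resolve_left hqM
  exact hq.one_lt.ne' (Nat.dvd_one.mp (hn ▸ Nat.dvd_gcd hqn hqR))

end Fermat.Agent.S58
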