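/-
Project S58 (helper20): the modular-side seams [ODD], [Z], [CMP] of `S58/SeamsMod.lean` as closed
terms, from `S58/Odd.lean` (`s58od_`), `S58/CharpolyCmp.lean` (`s58z_`), `S58/Cmp.lean`
(`s58cm_`).

* `s58od_seam : s58_OddSeam`
* `s58z_seam  : s58_ZSeam`
* `s58cm_seam : s58_CmpSeam`   (weak Chebotarev suffices: [CHEB-EX] is not used)
-/
import Mathlib
import Fermat.Agent.S58.SeamsMod
import Fermat.Agent.S58.Odd
import Fermat.Agent.S58.CharpolyCmp
import Fermat.Agent.S58.Cmp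

set_option autoImplicit false
set_option linter.style.haveILetI false

open Polynomial IsLocalRing

namespace Fermat.Agent.S58

open Fermat.Agent.JT3

/-- **[ODD]** -/
theorem s58od_seam : s58_OddSeam := by
  intro p _ hp2 O _ _ _ hp c hc hc1
  have hpp : p.Prime := Fact.out
  have hodd : Odd p := hpp.odd_of_ne_two hp2
  rw [← sub_eq_zero, sub_neg_eq_add]
  refine IsHausdorff.haus (I := maximalIdeal O) inferInstance _ fun n => ?_
  rw [SModEq.zero, smul_eq_mul, Ideal.mul_top]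
  have hpos : 1 ≤ p ^ n := Nat.one_le_pow _ _ hpp.pos
  have h1 := cya_eps_spec p O hp n c (p ^ n - 1)
    (fun μ hμ => s58od_galois_pow c hc hc1 hodd n μ hμ)
  rw [Nat.cast_sub hpos, Nat.cast_one] at h1
  have h2 : ((p ^ n : ℕ) : O) ∈ Ideal.span {((p ^ n : ℕ) : O)} := Ideal.mem_span_singleton_self _
  have h3 := Ideal.add_mem _ h1 h2
  have h4 : cya_eps p O hp c - (((p ^ n : ℕ) : O) - 1) + ((p ^ n : ℕ) : O) =
      cya_eps p O hp c + 1 := by ring
  rw [h4] at h3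
  exact cya_span_le p O hp n h3

/-- **[Z]** -/
theorem s58z_seam : s58_ZSeam := by
  intro O _ _ _ ρ₁ ρ₂ hkill hns σ
  obtain ⟨σ₀, hσ₀⟩ := hns
  exact s58z_main ρ₁.finrank_eq ρ₂.finrank_eq ρ₁.ρ ρ₂.ρ hkill σ₀ hσ₀ σ

/-- **[CMP]** -/
theorem s58cm_seam : s58_CmpSeam := by
  intro O _ _ _ ρ₁ ρ₂ S t d h1 h2 σ
  refine s58cm_main ρ₁ ρ₂ S (fun ℓ hℓ hℓS P hP φ hφ => ?_) σ
  rw [h1 ℓ hℓ hℓS P hP φ hφ]
  have := h2 ℓ hℓ hℓS P hP φ hφ
  simp only [map_add, map_sub, map_mul, map_pow, aeval_X, aeval_C,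
    Algebra.algebraMap_eq_smul_one, smul_mul_assoc, one_mul]
  exact this

end Fermat.Agent.S58
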